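import Fermat.Agent.S30.Defs
import Fermat.Agent.S31.Wrap
import Fermat.Agent.ES.TIota2
import Fermat.Agent.ES.KTrans
import Fermat.Agent.ES.Mult

/-!
# S30-FIN : the finite level data `FinData p N S`

`L = LamM N 1` is free of finite rank `d`; `iota_m : L → KV m N` is onto (MULT) with kernel `m L`,
so that `KV m N ≃ (ℤ / m) ^ d` compatibly with the coordinates of `L`.  The Galois action on
`KV (p ^ r) N` in these coordinates gives `α r`.
-/

set_option autoImplicit false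

noncomputable section

namespace Fermat.Agent.S30.FinLvl

open Module

section Abs

variable {L : Type*} [AddCommGroup L] {d : ℕ} (b : Basis (Fin d) ℤ L) (m : ℕ)

/-- the coordinates modulo `m`. -/
def coord : L →+ (Fin d → ZMod m) :=
  AddMonoidHom.mk' (fun f i => ((b.repr f i : ℤ) : ZMod m)) (by
    intro f g
    funext i
    simp)

theorem coord_apply (f : L) (i : Fin d) : coord b m f i = ((b.repr f i : ℤ) : ZMod m) := rfl

theorem coord_eq_map (f : L) : coord b m f = (Int.castRingHom (ZMod m)) ∘ (b.repr f) := rfl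

theorem coord_surjective : Function.Surjective (coord b m) := by
  intro v
  choose w hw using fun i => ZMod.intCast_surjective (v i)
  refine ⟨b.equivFun.symm w, ?_⟩
  funext i
  rw [coord_apply, ← Basis.equivFun_apply, LinearEquiv.apply_symm_apply, hw]

theorem coord_eq_zero_iff (f : L) : coord b m f = 0 ↔ ∃ g : L, f = m • g := by
  constructor
  · intro h
    have h1 : ∀ i, (m : ℤ) ∣ b.repr f i := fun i => by
      rw [← ZMod.intCast_zmod_eq_zero_iff_dvd, ← coord_apply, h, Pi.zero_apply]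
    choose w hw using h1
    refine ⟨b.equivFun.symm w, ?_⟩
    apply b.equivFun.injective
    rw [map_nsmul, LinearEquiv.apply_symm_apply]
    funext i
    rw [Basis.equivFun_apply, hw i, Pi.smul_apply, nsmul_eq_mul]
  · rintro ⟨g, rfl⟩
    rw [map_nsmul]
    funext i
    rw [Pi.smul_apply, nsmul_eq_mul, ZMod.natCast_self, zero_mul, Pi.zero_apply]

theorem coord_cast {m m' : ℕ} (h : m ∣ m') (f : L) :
    (ZMod.castHom h (ZMod m)) ∘ (coord b m' f) = coord b m f := by
  funext i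
  rw [Function.comp_apply, coord_apply, coord_apply, map_intCast]

/-- the matrix of an endomorphism of `L` acts on the coordinates. -/
theorem toMatrix_mulVec_coord (φ : Module.End ℤ L) (f : L) :
    ((LinearMap.toMatrix b b φ).map (Int.castRingHom (ZMod m))).mulVec (coord b m f)
      = coord b m (φ f) := by
  funext i
  rw [coord_eq_map, coord_eq_map, ← RingHom.map_mulVec, LinearMap.toMatrix_mulVec_repr]
  rfl

variable {b m}
variable {X : Type*} [AddCommGroup X] [Module (ZMod m) X]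

theorem exists_equiv (iota : L →+ X) (hsurj : Function.Surjective iota)
    (hker : ∀ f, iota f = 0 ↔ ∃ g : L, f = m • g) :
    ∃ e : X ≃ₗ[ZMod m] (Fin d → ZMod m), ∀ f, e (iota f) = coord b m f := by
  have hle : iota.ker ≤ (coord b m).ker := by
    intro f hf
    rw [AddMonoidHom.mem_ker] at hf ⊢
    exact (coord_eq_zero_iff b m f).2 ((hker f).1 hf)
  set F : X →+ (Fin d → ZMod m) := iota.liftOfSurjective hsurj ⟨coord b m, hle⟩ with hF
  have hFi : ∀ f, F (iota f) = coord b m f := fun f =>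
    AddMonoidHom.liftOfRightInverse_comp_apply _ _ _ ⟨coord b m, hle⟩ f
  have hinj : Function.Injective F := by
    rw [injective_iff_map_eq_zero]
    intro x hx
    obtain ⟨f, rfl⟩ := hsurj x
    rw [hFi] at hx
    exact (hker f).2 ((coord_eq_zero_iff b m f).1 hx)
  have hsur : Function.Surjective F := by
    intro v
    obtain ⟨f, rfl⟩ := coord_surjective b m v
    exact ⟨iota f, hFi f⟩
  exact ⟨LinearEquiv.ofBijective (F.toZModLinearMap m) ⟨hinj, hsur⟩, hFi⟩

/-- endomorphisms of `X` as matrices. -/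
def mat (e : X ≃ₗ[ZMod m] (Fin d → ZMod m)) :
    Module.End (ZMod m) X →+* Matrix (Fin d) (Fin d) (ZMod m) :=
  (LinearMap.toMatrixAlgEquiv' : _ ≃ₐ[ZMod m] Matrix (Fin d) (Fin d) (ZMod m)).toRingEquiv.toRingHom.comp
    e.conjRingEquiv.toRingHom

theorem mat_mulVec (e : X ≃ₗ[ZMod m] (Fin d → ZMod m)) (φ : Module.End (ZMod m) X) (x : X) :
    (mat e φ).mulVec (e x) = e (φ x) := by
  have h : mat e φ = LinearMap.toMatrix' (e.conjRingEquiv φ) := rfl
  rw [h, LinearMap.toMatrix'_mulVec]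
  simp [LinearEquiv.conjRingEquiv]

/-- two matrices agreeing on all the vectors `coord f` are equal. -/
theorem mat_ext (A B : Matrix (Fin d) (Fin d) (ZMod m))
    (h : ∀ f : L, A.mulVec (coord b m f) = B.mulVec (coord b m f)) : A = B := by
  apply Matrix.toLin'.injective
  refine LinearMap.ext fun v => ?_
  obtain ⟨f, rfl⟩ := coord_surjective b m v
  rw [Matrix.toLin'_apply, Matrix.toLin'_apply, h]

end Abs

section Conc

open Fermat.Agent.ES Fermat.Agent.S24 Fermat.Agent.S16 Fermat.Agent.S31 CuspForm CongruenceSubgroup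

variable (N : ℕ) [NeZero N]

/-- `iota` at the exponent `m`. -/
def io (m : ℕ) [NeZero m] : LamM N 1 →+ KV m N := Supp.iota (Wrap.hyp N m)

theorem io_surjective (m : ℕ) [NeZero m] : Function.Surjective (io N m) :=
  Supp.iota_surjective _ fun u hu => exists_Lam_TRel N m (Nat.pos_of_ne_zero (NeZero.ne m)) u hu

theorem io_eq_zero_iff (m : ℕ) [NeZero m] (f : LamM N 1) :
    io N m f = 0 ↔ ∃ g : LamM N 1, f = m • g := by
  rw [io, Supp.iota_eq_zero_iff]
  have hm : (m : ℂ) ≠ 0 := Nat.cast_ne_zero.mpr (NeZero.ne m)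
  constructor
  · intro h
    refine ⟨⟨(m : ℂ)⁻¹ • f.1, Sat.inv_smul_mem N (NeZero.ne m) h⟩, Subtype.ext ?_⟩
    show f.1 = m • ((m : ℂ)⁻¹ • f.1)
    rw [← Nat.cast_smul_eq_nsmul ℂ, smul_smul, mul_inv_cancel₀ hm, one_smul]
  · rintro ⟨g, rfl⟩
    intro γ
    obtain ⟨k, hk⟩ := g.2 γ
    refine ⟨k, ?_⟩
    show (Per N (m • g.1) (Additive.ofMul γ)).re = _
    rw [map_nsmul, AddMonoidHom.nsmul_apply, nsmul_eq_mul]
    have e : ((m : ℂ) * Per N g.1 (Additive.ofMul γ)).re
        = m * (Per N g.1 (Additive.ofMul γ)).re := by simp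
    rw [e, hk]
    push_cast
    ring

theorem red_io {m M : ℕ} [NeZero m] [NeZero M] (h : m ∣ M) (f : LamM N 1) :
    KV.red h (io N M f) = io N m f := by
  obtain ⟨c, rfl⟩ := h
  have : NeZero c := ⟨fun hc => NeZero.ne (m * c) (by rw [hc, mul_zero])⟩
  have h1 := Supp.iota_eq_mk_of_mul (Wrap.hyp N m) (Wrap.hyp N (m * c)) f
    ⟨_, KV.pdivUnits_le (dvd_mul_right m c) (Supp.wOf (Wrap.hyp N (m * c)) f).2⟩
    (Supp.wOf (Wrap.hyp N (m * c)) f) rfl rfl
  rw [io, io, h1, Supp.iota_apply, KV.red_mk]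

theorem heckeV_io (m : ℕ) [NeZero m] (S : Set ℕ) {ℓ : ℕ} [Fact ℓ.Prime] (hℓ : ℓ.Prime)
    (hℓN : ¬ ℓ ∣ N) (hℓS : ℓ ∉ S) (f : LamM N 1) :
    heckeV m N ℓ (io N m f) = io N m (Core.actL N S (heckeAlgebra.T hℓ hℓN hℓS) f) := by
  have e : Core.actL N S (heckeAlgebra.T hℓ hℓN hℓS) f = Supp.heckeL hℓ hℓN f := Subtype.ext rfl
  rw [e, io, ← Supp.lift_iota (Wrap.hyp N m) ℓ hℓ hℓN f, Supp.iota_apply,
    heckeV_mk m N ℓ ((Wrap.hyp N m).heckeU_mem ℓ), KV.lift_mk]

theorem actL_injective (S : Set ℕ) : Function.Injective (Core.actL N S) := by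
  intro s t hst
  apply Subtype.ext
  rw [← sub_eq_zero]
  apply Sat.eq_zero_of_forall
  intro f hf
  have := congrArg (fun φ : Module.End ℤ (LamM N 1) =>
    ((φ ⟨f, hf⟩ : LamM N 1) : CuspForm (Gamma0 N) 2)) hst
  simp only [Core.actL_apply] at this
  rw [LinearMap.sub_apply, this, sub_self]

variable {N} {d : ℕ} (b : Basis (Fin d) ℤ (LamM N 1))

theorem exists_e (m : ℕ) [NeZero m] :
    ∃ e : KV m N ≃ₗ[ZMod m] (Fin d → ZMod m), ∀ f, e (io N m f) = coord b m f :=
  exists_equiv (io N m) (io_surjective N m) (io_eq_zero_iff N m)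

/-- the coordinates on `KV m N`. -/
def eqv (m : ℕ) [NeZero m] : KV m N ≃ₗ[ZMod m] (Fin d → ZMod m) := (exists_e b m).choose

theorem eqv_io (m : ℕ) [NeZero m] (f : LamM N 1) : eqv b m (io N m f) = coord b m f :=
  (exists_e b m).choose_spec f

/-- the Galois action in coordinates. -/
def alpha (m : ℕ) [NeZero m] : GQ →* Matrix (Fin d) (Fin d) (ZMod m) :=
  ((mat (eqv b m) : _ →+* _) : _ →* _).comp (galV m N)

theorem alpha_apply (m : ℕ) [NeZero m] (g : GQ) : alpha b m g = mat (eqv b m) (galV m N g) := rfl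

theorem alpha_mulVec (m : ℕ) [NeZero m] (g : GQ) (f : LamM N 1) :
    (alpha b m g).mulVec (coord b m f) = eqv b m (galV m N g (io N m f)) := by
  rw [alpha_apply, ← eqv_io, mat_mulVec]

/-- the Hecke action in coordinates. -/
def tau (S : Set ℕ) : heckeAlgebra N 2 S →+* Matrix (Fin d) (Fin d) ℤ :=
  (LinearMap.toMatrixAlgEquiv b : _ ≃ₐ[ℤ] Matrix (Fin d) (Fin d) ℤ).toRingEquiv.toRingHom.comp
    (Core.actL N S)

theorem tau_apply (S : Set ℕ) (t : heckeAlgebra N 2 S) :
    tau b S t = LinearMap.toMatrix b b (Core.actL N S t) := rfl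

theorem tau_injective (S : Set ℕ) : Function.Injective (tau b S) := by
  intro s t h
  rw [tau_apply, tau_apply] at h
  exact actL_injective N S ((LinearMap.toMatrix b b).injective h)

theorem tau_mulVec (S : Set ℕ) (m : ℕ) (t : heckeAlgebra N 2 S) (f : LamM N 1) :
    (toO (ZMod m) (tau b S t)).mulVec (coord b m f) = coord b m (Core.actL N S t f) :=
  toMatrix_mulVec_coord b m _ f

theorem mat_heckeV (m : ℕ) [NeZero m] (S : Set ℕ) {ℓ : ℕ} [Fact ℓ.Prime] (hℓ : ℓ.Prime)
    (hℓN : ¬ ℓ ∣ N) (hℓS : ℓ ∉ S) :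
    mat (eqv b m) (heckeV m N ℓ) = toO (ZMod m) (tau b S (heckeAlgebra.T hℓ hℓN hℓS)) := by
  apply mat_ext (b := b)
  intro f
  rw [tau_mulVec, ← eqv_io, mat_mulVec, heckeV_io N m S hℓ hℓN hℓS, eqv_io]

theorem eqv_red {m M : ℕ} [NeZero m] [NeZero M] (h : m ∣ M) (x : KV M N) :
    eqv b m (KV.red h x) = (ZMod.castHom h (ZMod m)) ∘ (eqv b M x) := by
  obtain ⟨f, rfl⟩ := io_surjective N M x
  rw [red_io, eqv_io, eqv_io, coord_cast]

theorem alpha_cast {m M : ℕ} [NeZero m] [NeZero M] (h : m ∣ M) (g : GQ) :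
    (alpha b M g).map (ZMod.castHom h (ZMod m)) = alpha b m g := by
  apply mat_ext (b := b)
  intro f
  have h1 : ((alpha b M g).map (ZMod.castHom h (ZMod m))).mulVec
      ((ZMod.castHom h (ZMod m)) ∘ (coord b M f))
      = (ZMod.castHom h (ZMod m)) ∘ ((alpha b M g).mulVec (coord b M f)) := by
    funext i
    rw [← RingHom.map_mulVec]
    rfl
  rw [alpha_mulVec, ← coord_cast b h f, h1, alpha_mulVec, ← eqv_red, KV.red_galV, red_io]

theorem alpha_comm (m : ℕ) [NeZero m] (S : Set ℕ) (hNS : ∀ q : ℕ, q.Prime → q ∣ N → q ∈ S)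
    (g : GQ) (t : heckeAlgebra N 2 S) :
    alpha b m g * toO (ZMod m) (tau b S t) = toO (ZMod m) (tau b S t) * alpha b m g := by
  set Θ : heckeAlgebra N 2 S →+* Matrix (Fin d) (Fin d) (ZMod m) :=
    (Int.castRingHom (ZMod m)).mapMatrix.comp (tau b S) with hΘ
  have hΘt : ∀ t, toO (ZMod m) (tau b S t) = Θ t := fun _ => rfl
  rw [hΘt]
  change Commute (alpha b m g) (Θ t)
  obtain ⟨t, ht⟩ := t
  induction ht using Algebra.adjoin_induction with
  | mem T hT =>
    rcases hT with ⟨ℓ, hℓ, hℓN, hℓS, rfl⟩ | ⟨q, hqN, hq, hqS, rfl⟩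
    · have : Fact ℓ.Prime := ⟨hℓ⟩
      have h1 : Θ ⟨heckeTLin 2 hℓ hℓN, Algebra.subset_adjoin (Or.inl ⟨ℓ, hℓ, hℓN, hℓS, rfl⟩)⟩
          = mat (eqv b m) (heckeV m N ℓ) := (mat_heckeV b m S hℓ hℓN hℓS).symm
      rw [h1, alpha_apply]
      change _ * _ = _ * _
      rw [← map_mul, ← map_mul, galV_comm_heckeV]
    · exact absurd (hNS q hq hqN) hqS
  | algebraMap r =>
    have h1 : (⟨algebraMap ℤ _ r, Subalgebra.algebraMap_mem _ r⟩ : heckeAlgebra N 2 S)
        = ((r : ℤ) : heckeAlgebra N 2 S) := by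
      apply Subtype.ext
      simp
    rw [h1, map_intCast]
    exact Int.commute_cast _ _
  | add x y hx hy ihx ihy =>
    have h1 : (⟨x + y, Subalgebra.add_mem _ hx hy⟩ : heckeAlgebra N 2 S) = ⟨x, hx⟩ + ⟨y, hy⟩ := rfl
    rw [h1, map_add]
    exact ihx.add_right ihy
  | mul x y hx hy ihx ihy =>
    have h1 : (⟨x * y, Subalgebra.mul_mem _ hx hy⟩ : heckeAlgebra N 2 S) = ⟨x, hx⟩ * ⟨y, hy⟩ := rfl
    rw [h1, map_mul]
    exact ihx.mul_right ihy

theorem alpha_smooth (m : ℕ) [NeZero m] :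
    ∃ L : IntermediateField ℚ Kb, FiniteDimensional ℚ L ∧
      ∀ σ : GQ, (∀ x ∈ L, σ x = x) → alpha b m σ = 1 := by
  choose L hL h using fun i : Fin d => galV_smooth m N (io N m (b i))
  refine ⟨⨆ i, L i, IntermediateField.finiteDimensional_iSup_of_finite, fun σ hσ => ?_⟩
  have h1 : ∀ i, galV m N σ (io N m (b i)) = io N m (b i) := fun i =>
    h i σ fun a ha => hσ a ((le_iSup L i) ha)
  have h2 : (((galV m N σ).toAddMonoidHom.comp (io N m)).toIntLinearMap : LamM N 1 →ₗ[ℤ] KV m N)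
      = (io N m).toIntLinearMap := b.ext fun i => h1 i
  have h3 : ∀ f, galV m N σ (io N m f) = io N m f := fun f => LinearMap.congr_fun h2 f
  apply mat_ext (b := b)
  intro f
  rw [alpha_mulVec, h3, eqv_io, Matrix.one_mulVec]

end Conc

end Fermat.Agent.S30.FinLvl

namespace Fermat.Agent.S30

open Fermat.Agent.ES Fermat.Agent.S24 Fermat.Agent.S16 Fermat.Agent.S31 CuspForm CongruenceSubgroup
  Fermat.Agent.S30.FinLvl

theorem exists_finData (p : ℕ) [Fact p.Prime] (N : ℕ) [NeZero N] (S : Set ℕ)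
    (hNS : ∀ q : ℕ, q.Prime → q ∣ N → q ∈ S)
    (hINJ : ∀ (r ℓ : ℕ), ℓ.Prime → ¬ ℓ ∣ N → ℓ ≠ p → ∀ A : ValuationSubring Kb,
      A.LiesOverPrime ℓ → INJ (p ^ r) N A) :
    Nonempty (FinData p N S) := by
  have hfin := Lat.finite_LamM_one N
  have htf : IsAddTorsionFree (CuspForm (Gamma0 N) 2) := by
    have : Module ℚ (CuspForm (Gamma0 N) 2) := Module.compHom _ (algebraMap ℚ ℂ)
    exact IsAddTorsionFree.of_module_rat _
  have hfree : Module.Free ℤ (LamM N 1) := Module.free_of_finite_type_torsion_free'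
  have hnz : ∀ r : ℕ, NeZero (p ^ r) := fun r => ⟨pow_ne_zero _ (Fact.out : p.Prime).ne_zero⟩
  let b : Module.Basis (Fin (Module.finrank ℤ (LamM N 1))) ℤ (LamM N 1) := Module.finBasis ℤ _
  exact ⟨{
    d := Module.finrank ℤ (LamM N 1)
    τ := tau b S
    τ_inj := tau_injective b S
    α := fun r => alpha b (p ^ r)
    compat := fun r g => alpha_cast b _ g
    comm := fun r g t => alpha_comm b (p ^ r) S hNS g t
    smooth := fun r => alpha_smooth b (p ^ r)
    es := fun r ℓ hℓ hℓN hℓS hℓp A hA σ hσ => by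
      have : Fact ℓ.Prime := ⟨hℓ⟩
      have h := eichler_shimura (p ^ r) N ℓ hℓN A hA (hINJ r ℓ hℓ hℓN hℓp A hA) σ hσ
      have h2 := congrArg (mat (eqv b (p ^ r))) h
      rw [map_add, map_sub, map_mul, map_mul, map_natCast, map_zero,
        mat_heckeV b (p ^ r) S hℓ hℓN hℓS] at h2
      exact h2
    inert := fun r q hq hqN hqp A hA σ hσ => by
      have : Fact q.Prime := ⟨hq⟩
      rw [alpha_apply, galV_inertia (p ^ r) N q A hA (hINJ r q hq hqN hqp A hA) σ hσ, map_one] }⟩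

end Fermat.Agent.S30
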