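import Fermat.Agent.ES.EAlg

/-!
# S30, package CC : the complex conjugation trick

A group `G` acts on a nonzero finite dimensional space `W` with `g² - t(g) g + d(g) = 0`, and
`c ∈ G` is an involution with `d(c) = -1`.  Then `W` contains a stable line, or a stable plane on
which `c` has both eigenvalues `1` and `-1`.  No extension of scalars is needed.
-/

set_option autoImplicit false
set_option linter.unusedSectionVars false

open Polynomial Module

namespace Fermat.Agent.S30.CC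

open Fermat.Agent.ES

section Field

variable {K : Type*} [Field K] {G : Type*} [Group G] {W : Type*} [AddCommGroup W] [Module K W]
  {ρ : G →* End K W} {d : G →* Kˣ} {t : G → K}

lemma rho_c_sq {c : G} (hc : c * c = 1) : ρ c * ρ c = 1 := by rw [← map_mul, hc, map_one]

lemma EF_mem {c : G} (hc : c * c = 1) (hdc : d c = -1) : (1 + ρ c, 1 - ρ c) ∈ EAlg.PP ρ d := by
  have h1 : ((1 : End K W), (1 : End K W)) ∈ EAlg.PP ρ d := by
    refine Submodule.subset_span ⟨1, ?_⟩
    simp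
  have h2 : (ρ c, - ρ c) ∈ EAlg.PP ρ d := by
    refine Submodule.subset_span ⟨c, ?_⟩
    have hci : c⁻¹ = c := inv_eq_of_mul_eq_one_left hc
    simp [hci, hdc]
  have := add_mem h1 h2
  simpa [sub_eq_add_neg] using this

/-- `2 E z E` is a multiple of `E` -/
lemma two_EzE (h : ∀ g, ρ g * ρ g - t g • ρ g + ((d g : Kˣ) : K) • (1 : End K W) = 0)
    {E F : End K W} (hEF : (E, F) ∈ EAlg.PP ρ d) (hmul : E * F = 0) (hE2 : E * E = (2 : K) • E)
    (z : End K W × End K W) (hz : z ∈ EAlg.PP ρ d) :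
    ∃ s : K, (2 : K) • (E * z.1 * E) = s • E := by
  have h1 := EAlg.PP_mul _ (EAlg.PP_mul _ hEF _ hz) _ hEF
  obtain ⟨s, hs⟩ := EAlg.PP_add h _ h1
  refine ⟨s, ?_⟩
  have h2 := congrArg (fun x => E * x) hs
  simp only [mul_add] at h2
  have e1 : E * (E * z.1 * E) = (2 : K) • (E * z.1 * E) := by
    rw [← mul_assoc, ← mul_assoc, hE2]
    simp [mul_assoc]
  have e2 : E * (F * (z.2 * F)) = 0 := by rw [← mul_assoc, hmul, zero_mul]
  rw [e1, e2, add_zero] at h2
  rw [h2]
  simp

/-- the span of an orbit -/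
def orb (ρ : G →* End K W) (u : W) : Submodule K W := Submodule.span K (Set.range fun g => ρ g u)

lemma mem_orb_self (u : W) : u ∈ orb ρ u := Submodule.subset_span ⟨1, by simp⟩

lemma orb_stable (u : W) (g : G) (x : W) (hx : x ∈ orb ρ u) : ρ g x ∈ orb ρ u := by
  induction hx using Submodule.span_induction with
  | mem x hx =>
    obtain ⟨g', rfl⟩ := hx
    exact Submodule.subset_span ⟨g * g', by simp⟩
  | zero => simp
  | add x y _ _ hx hy => rw [map_add]; exact add_mem hx hy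
  | smul r x _ hx => rw [map_smul]; exact Submodule.smul_mem _ r hx

lemma orb_le {U : Submodule K W} (hU : ∀ g, ∀ x ∈ U, ρ g x ∈ U) {u : W} (hu : u ∈ U) :
    orb ρ u ≤ U := by
  rw [orb, Submodule.span_le]
  rintro _ ⟨g, rfl⟩
  exact hU g u hu

lemma exists_PP_of_mem_orb (d : G →* Kˣ) {u x : W} (hx : x ∈ orb ρ u) :
    ∃ z ∈ EAlg.PP ρ d, z.1 u = x := by
  induction hx using Submodule.span_induction with
  | mem x hx =>
    obtain ⟨g, rfl⟩ := hx
    exact ⟨_, Submodule.subset_span ⟨g, rfl⟩, rfl⟩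
  | zero => exact ⟨0, zero_mem _, by simp⟩
  | add x y _ _ hx hy =>
    obtain ⟨z, hz, rfl⟩ := hx
    obtain ⟨z', hz', rfl⟩ := hy
    exact ⟨z + z', add_mem hz hz', by simp⟩
  | smul r x _ hx =>
    obtain ⟨z, hz, rfl⟩ := hx
    exact ⟨r • z, Submodule.smul_mem _ r hz, by simp⟩

/-- if `c` acts as the scalar `ε = ± 1` on a stable subspace, every `g` acts as a scalar -/
lemma two_smul_of_scalar
    (h : ∀ g, ρ g * ρ g - t g • ρ g + ((d g : Kˣ) : K) • (1 : End K W) = 0)
    {c : G} (hc : c * c = 1) (hdc : d c = -1) {U : Submodule K W}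
    (hU : ∀ g, ∀ x ∈ U, ρ g x ∈ U) {ε : K} (hε : ε * ε = 1) (hcU : ∀ x ∈ U, ρ c x = ε • x)
    (g : G) (x : W) (hx : x ∈ U) : (2 : K) • ρ g x = (t g + ε * t (c * g)) • x := by
  have hci : c⁻¹ = c := inv_eq_of_mul_eq_one_left hc
  have h1 := congrArg (fun f : End K W => f x) (EAlg.gen_add h g)
  have h2 := congrArg (fun f : End K W => f x) (EAlg.gen_add h (c * g))
  simp only [LinearMap.add_apply, LinearMap.smul_apply, Module.End.one_apply, map_mul,
    mul_inv_rev, hci, Module.End.mul_apply, hdc, Units.val_mul, Units.val_neg, Units.val_one]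
    at h1 h2
  rw [hcU _ (hU g x hx), hcU x hx, map_smul] at h2
  have h3 : ε • (ε • ρ g x + (-1 * ((d g : Kˣ) : K)) • ε • ρ g⁻¹ x) =
      ρ g x - ((d g : Kˣ) : K) • ρ g⁻¹ x := by
    rw [smul_add, smul_smul, smul_smul, smul_smul, hε]
    have : ε * (-1 * ((d g : Kˣ) : K)) * ε = - ((d g : Kˣ) : K) := by
      linear_combination (-((d g : Kˣ) : K)) * hε
    rw [this]
    module
  rw [h2] at h3
  have h4 : (2 : K) • ρ g x = (ρ g x + ((d g : Kˣ) : K) • ρ g⁻¹ x) +
      (ρ g x - ((d g : Kˣ) : K) • ρ g⁻¹ x) := by module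
  rw [h4, h1, ← h3]
  module

/-- **CC, field level.** -/
theorem exists_stable (h2 : (2 : K) ≠ 0) [FiniteDimensional K W] [Nontrivial W]
    (h : ∀ g, ρ g * ρ g - t g • ρ g + ((d g : Kˣ) : K) • (1 : End K W) = 0)
    {c : G} (hc : c * c = 1) (hdc : d c = -1) :
    ∃ U : Submodule K W, (∀ g, ∀ x ∈ U, ρ g x ∈ U) ∧
      (finrank K U = 1 ∨ (finrank K U = 2 ∧
        ∃ u ∈ U, ∃ v ∈ U, u ≠ 0 ∧ v ≠ 0 ∧ ρ c u = u ∧ ρ c v = -v)) := by
  obtain ⟨U, hUmin⟩ := exists_minimal_of_wellFoundedLT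
    (fun U : Submodule K W => U ≠ ⊥ ∧ ∀ g, ∀ u ∈ U, ρ g u ∈ U)
    ⟨⊤, top_ne_bot, fun _ _ _ => Submodule.mem_top⟩
  obtain ⟨hne, hst⟩ := hUmin.prop
  have hcc := rho_c_sq (ρ := ρ) hc
  -- the line case
  have hline : ∀ ε : K, ε * ε = 1 → (∀ x ∈ U, ρ c x = ε • x) →
      ∃ U : Submodule K W, (∀ g, ∀ x ∈ U, ρ g x ∈ U) ∧
      (finrank K U = 1 ∨ (finrank K U = 2 ∧
        ∃ u ∈ U, ∃ v ∈ U, u ≠ 0 ∧ v ≠ 0 ∧ ρ c u = u ∧ ρ c v = -v)) := by
    intro ε hε hcU
    obtain ⟨x, hx, hx0⟩ := Submodule.exists_mem_ne_zero_of_ne_bot hne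
    refine ⟨Submodule.span K {x}, ?_, Or.inl (finrank_span_singleton hx0)⟩
    intro g y hy
    obtain ⟨a, rfl⟩ := Submodule.mem_span_singleton.1 hy
    rw [map_smul]
    refine Submodule.smul_mem _ a ?_
    have h3 := two_smul_of_scalar h hc hdc hst hε hcU g x hx
    have h4 : ρ g x = ((2 : K)⁻¹ * (t g + ε * t (c * g))) • x := by
      rw [mul_smul, ← h3, smul_smul, inv_mul_cancel₀ h2, one_smul]
    rw [h4]
    exact Submodule.smul_mem _ _ (Submodule.mem_span_singleton_self x)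
  by_cases hE : ∀ x ∈ U, (1 + ρ c) x = 0
  · refine hline (-1) (by ring) fun x hx => ?_
    have := hE x hx
    simp only [LinearMap.add_apply, Module.End.one_apply] at this
    rw [neg_one_smul]
    exact eq_neg_of_add_eq_zero_right this
  by_cases hF : ∀ x ∈ U, (1 - ρ c) x = 0
  · refine hline 1 (by ring) fun x hx => ?_
    have := hF x hx
    simp only [LinearMap.sub_apply, Module.End.one_apply] at this
    rw [one_smul]
    exact (sub_eq_zero.1 this).symm
  push Not at hE hF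
  obtain ⟨x0, hx0, hu0⟩ := hE
  obtain ⟨y0, hy0, hv0⟩ := hF
  set E : End K W := 1 + ρ c with hEdef
  set F : End K W := 1 - ρ c with hFdef
  have hEF : (E, F) ∈ EAlg.PP ρ d := EF_mem hc hdc
  have hFE : (F, E) ∈ EAlg.PP ρ d := EAlg.PP_swap _ hEF
  have hEFmul : E * F = 0 := by
    rw [hEdef, hFdef, add_mul, mul_sub, mul_sub, hcc]
    simp
  have hFEmul : F * E = 0 := by
    rw [hEdef, hFdef, sub_mul, mul_add, mul_add, hcc]
    simp only [one_mul, mul_one]
    abel
  have hE2 : E * E = (2 : K) • E := by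
    rw [hEdef, add_mul, mul_add, mul_add, hcc, two_smul]
    simp only [one_mul, mul_one]
    abel
  have hF2 : F * F = (2 : K) • F := by
    rw [hFdef, sub_mul, mul_sub, mul_sub, hcc, two_smul]
    simp only [one_mul, mul_one]
    abel
  have hcE : ρ c * E = E := by
    rw [hEdef, mul_add, hcc, mul_one, add_comm]
  have hcF : ρ c * F = - F := by
    rw [hFdef, mul_sub, hcc, mul_one, neg_sub]
  have hEU : ∀ x ∈ U, E x ∈ U := fun x hx => by
    rw [hEdef]
    exact add_mem hx (hst c x hx)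
  have hFU : ∀ x ∈ U, F x ∈ U := fun x hx => by
    rw [hFdef]
    exact sub_mem hx (hst c x hx)
  have hu : E x0 ∈ U := hEU x0 hx0
  have hv : F y0 ∈ U := hFU y0 hy0
  have hcu : ρ c (E x0) = E x0 := by
    rw [← Module.End.mul_apply, hcE]
  have hcv : ρ c (F y0) = - F y0 := by
    rw [← Module.End.mul_apply, hcF]
    rfl
  -- the orbits of `u` and `v` span `U`
  have horb : ∀ w ∈ U, w ≠ 0 → U ≤ orb ρ w := by
    intro w hw hw0
    have hP : orb ρ w ≠ ⊥ ∧ ∀ g, ∀ x ∈ orb ρ w, ρ g x ∈ orb ρ w := by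
      refine ⟨fun hb => hw0 ?_, orb_stable w⟩
      have := mem_orb_self (ρ := ρ) w
      rwa [hb, Submodule.mem_bot] at this
    exact hUmin.le_of_le hP (orb_le hst hw)
  have hspan : U ≤ Submodule.span K {E x0, F y0} := by
    intro y hy
    obtain ⟨z, hz, hzy⟩ := exists_PP_of_mem_orb d (horb _ hu hu0 hy)
    obtain ⟨z', hz', hzy'⟩ := exists_PP_of_mem_orb d (horb _ hv hv0 hy)
    obtain ⟨s, hs⟩ := two_EzE h hEF hEFmul hE2 z hz
    obtain ⟨s', hs'⟩ := two_EzE h hFE hFEmul hF2 z' hz'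
    have e1 : (2 : K) • E y = s • E x0 := by
      have := congrArg (fun f : End K W => f x0) hs
      simpa [hzy] using this
    have e2 : (2 : K) • F y = s' • F y0 := by
      have := congrArg (fun f : End K W => f y0) hs'
      simpa [hzy'] using this
    have e3 : (2 : K) • y = E y + F y := by
      rw [hEdef, hFdef, two_smul]
      simp
    have e4 : y = ((2 : K)⁻¹ * (2 : K)⁻¹ * s) • E x0 + ((2 : K)⁻¹ * (2 : K)⁻¹ * s') • F y0 := by
      rw [mul_smul, mul_smul, mul_smul, mul_smul, ← e1, ← e2, ← smul_add, ← smul_add, ← smul_add,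
        ← e3, smul_smul, smul_smul]
      have : (2 : K)⁻¹ * (2 : K)⁻¹ * 2 * 2 = 1 := by field_simp
      rw [smul_smul, this, one_smul]
    rw [e4]
    exact add_mem (Submodule.smul_mem _ _ (Submodule.subset_span (by simp)))
      (Submodule.smul_mem _ _ (Submodule.subset_span (by simp)))
  have hUeq : U = Submodule.span K {E x0, F y0} := by
    refine le_antisymm hspan ?_
    rw [Submodule.span_le]
    rintro w (rfl | rfl)
    · exact hu
    · exact hv
  have hli : LinearIndependent K ![E x0, F y0] := by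
    rw [LinearIndependent.pair_iff]
    intro a b hab
    have h3 := congrArg (ρ c) hab
    rw [map_add, map_smul, map_smul, hcu, hcv, map_zero, smul_neg] at h3
    have h4 : (2 * a) • E x0 = 0 := by
      have : (2 * a) • E x0 = (a • E x0 + b • F y0) + (a • E x0 + - (b • F y0)) := by module
      rw [this, hab, h3, add_zero]
    have h5 : (2 * b) • F y0 = 0 := by
      have : (2 * b) • F y0 = (a • E x0 + b • F y0) - (a • E x0 + - (b • F y0)) := by module
      rw [this, hab, h3, sub_zero]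
    rw [smul_eq_zero] at h4 h5
    constructor
    · rcases h4 with h4 | h4
      · exact (mul_eq_zero.1 h4).resolve_left h2
      · exact absurd h4 hu0
    · rcases h5 with h5 | h5
      · exact (mul_eq_zero.1 h5).resolve_left h2
      · exact absurd h5 hv0
  refine ⟨U, hst, Or.inr ⟨?_, E x0, hu, F y0, hv, hu0, hv0, hcu, hcv⟩⟩
  have h6 := finrank_span_eq_card hli
  have h7 : Set.range ![E x0, F y0] = {E x0, F y0} := by
    simp [Matrix.range_cons, Set.pair_comm]
  rw [h7, ← hUeq] at h6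
  simpa using h6

end Field

section Domain

variable {R : Type*} [CommRing R] [IsDomain R] {G : Type*} [Group G] {V : Type*} [AddCommGroup V]
  [Module R V] [Module.Free R V] [Module.Finite R V]

lemma charpoly_two (hV : finrank R V = 2) (f : End R V) :
    f.charpoly = X ^ 2 - C (LinearMap.trace R V f) * X + C (LinearMap.det f) := by
  classical
  let b := Module.finBasisOfFinrankEq R V hV
  rw [← LinearMap.charpoly_toMatrix f b, Matrix.charpoly_fin_two,
    LinearMap.trace_eq_matrix_trace R b, ← LinearMap.det_toMatrix b]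

lemma cayley (hV : finrank R V = 2) (f : End R V) :
    f * f - LinearMap.trace R V f • f + LinearMap.det f • (1 : End R V) = 0 := by
  have h := LinearMap.aeval_self_charpoly f
  rw [charpoly_two hV] at h
  simp only [map_add, map_sub, map_mul, map_pow, aeval_X, aeval_C] at h
  rw [Algebra.algebraMap_eq_smul_one, Algebra.algebraMap_eq_smul_one, smul_mul_assoc,
    one_mul, sq] at h
  exact h

lemma smul_one_eq_zero (hV : finrank R V = 2) {r : R} (h : r • (1 : End R V) = 0) : r = 0 := by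
  have : Nontrivial V := Module.nontrivial_of_finrank_pos (R := R) (by omega)
  obtain ⟨x, hx⟩ := exists_ne (0 : V)
  have h1 := congrArg (fun f : End R V => f x) h
  simp only [LinearMap.smul_apply, Module.End.one_apply, LinearMap.zero_apply] at h1
  exact (smul_eq_zero.1 h1).resolve_right hx

/-- `f` is a scalar over the fraction field -/
def IsSc (f : End R V) : Prop := ∃ a b : R, a ≠ 0 ∧ a • f = b • (1 : End R V)

lemma tr_det_of_not_isSc (hV : finrank R V = 2) {f : End R V} {t δ : R}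
    (h : f * f - t • f + δ • (1 : End R V) = 0) (hf : ¬ IsSc f) :
    LinearMap.trace R V f = t ∧ LinearMap.det f = δ := by
  have h1 := cayley hV f
  have h2 : (LinearMap.trace R V f - t) • f = (LinearMap.det f - δ) • (1 : End R V) := by
    have : (LinearMap.trace R V f - t) • f - (LinearMap.det f - δ) • (1 : End R V) =
        (f * f - t • f + δ • (1 : End R V)) -
          (f * f - LinearMap.trace R V f • f + LinearMap.det f • (1 : End R V)) := by module
    rw [← sub_eq_zero, this, h, h1, sub_zero]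
  have h3 : LinearMap.trace R V f - t = 0 := by
    by_contra hne
    exact hf ⟨_, _, hne, h2⟩
  rw [h3, zero_smul] at h2
  exact ⟨sub_eq_zero.1 h3, sub_eq_zero.1 (smul_one_eq_zero hV h2.symm)⟩

/-- **CC, characteristic polynomials**: on a free module of rank two on which `c` has both
eigenvalues, the quadratic relation is the characteristic polynomial. -/
theorem charpoly_of_rel (h2 : (2 : R) ≠ 0) (hV : finrank R V = 2) (τ : G →* End R V)
    (d : G →* Rˣ) (t : G → R)
    (h : ∀ g, τ g * τ g - t g • τ g + ((d g : Rˣ) : R) • (1 : End R V) = 0)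
    {c : G} (hdc : d c = -1) {u v : V} (hu : u ≠ 0) (hv : v ≠ 0) (hcu : τ c u = u)
    (hcv : τ c v = -v) (g : G) :
    (τ g).charpoly = X ^ 2 - C (t g) * X + C ((d g : Rˣ) : R) := by
  have hc : ¬ IsSc (τ c) := by
    rintro ⟨a, b, ha, hab⟩
    have h3 := congrArg (fun f : End R V => f u) hab
    have h4 := congrArg (fun f : End R V => f v) hab
    simp only [LinearMap.smul_apply, Module.End.one_apply, hcu, hcv] at h3 h4
    have h5 : a - b = 0 := by
      have : (a - b) • u = 0 := by rw [sub_smul, h3, sub_self]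
      exact (smul_eq_zero.1 this).resolve_right hu
    have h6 : a + b = 0 := by
      have : (a + b) • v = 0 := by
        rw [add_smul, ← h4, smul_neg, add_neg_cancel]
      exact (smul_eq_zero.1 this).resolve_right hv
    apply ha
    have h7 : 2 * a = 0 := by linear_combination h5 + h6
    exact (mul_eq_zero.1 h7).resolve_left h2
  suffices hh : LinearMap.trace R V (τ g) = t g ∧ LinearMap.det (τ g) = ((d g : Rˣ) : R) by
    rw [charpoly_two hV, hh.1, hh.2]
  by_cases hs : IsSc (τ g)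
  · obtain ⟨a, b, ha, hab⟩ := hs
    have hinv : τ g * τ g⁻¹ = 1 := by rw [← map_mul, mul_inv_cancel, map_one]
    have hb : b ≠ 0 := by
      rintro rfl
      rw [zero_smul] at hab
      have h3 : a • (1 : End R V) = 0 := by
        rw [← hinv, ← smul_mul_assoc, hab, zero_mul]
      exact ha (smul_one_eq_zero hV h3)
    have hcg : ¬ IsSc (τ (c * g)) := by
      rintro ⟨a', b', ha', hab'⟩
      apply hc
      refine ⟨a' * b, a * b', mul_ne_zero ha' hb, ?_⟩
      have h3 : (a' * b) • τ c = a' • (τ c * (a • τ g)) := by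
        rw [hab, mul_smul_comm, mul_one, smul_smul]
      rw [h3, mul_smul_comm, ← map_mul, smul_comm, hab', smul_smul]
    have hdet1 := (tr_det_of_not_isSc hV (h c) hc).2
    have hdet2 := (tr_det_of_not_isSc hV (h (c * g)) hcg).2
    rw [map_mul, map_mul, hdet1, map_mul, hdc] at hdet2
    have hdet : LinearMap.det (τ g) = ((d g : Rˣ) : R) := by
      simpa using hdet2
    refine ⟨?_, hdet⟩
    have htr : a * LinearMap.trace R V (τ g) = b * 2 := by
      have := congrArg (LinearMap.trace R V) hab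
      rw [map_smul, map_smul, LinearMap.trace_one, hV] at this
      simpa using this
    have hdet3 : a ^ 2 * LinearMap.det (τ g) = b ^ 2 := by
      have := congrArg LinearMap.det hab
      rw [LinearMap.det_smul, LinearMap.det_smul, hV, map_one, mul_one] at this
      exact this
    have hrel : b ^ 2 - t g * a * b + ((d g : Rˣ) : R) * a ^ 2 = 0 := by
      apply smul_one_eq_zero (V := V) hV
      have h3 : (b ^ 2 - t g * a * b + ((d g : Rˣ) : R) * a ^ 2) • (1 : End R V) =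
          (a • τ g) * (a • τ g) - (t g * a) • (a • τ g) +
            (((d g : Rˣ) : R) * a ^ 2) • (1 : End R V) := by
        rw [hab]
        simp only [smul_mul_smul_comm, mul_one, smul_smul]
        module
      rw [h3]
      have h4 : (a • τ g) * (a • τ g) - (t g * a) • (a • τ g) +
            (((d g : Rˣ) : R) * a ^ 2) • (1 : End R V) =
          (a ^ 2) • (τ g * τ g - t g • τ g + ((d g : Rˣ) : R) • (1 : End R V)) := by
        simp only [smul_mul_smul_comm, smul_smul]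
        module
      rw [h4, h g, smul_zero]
    rw [hdet] at hdet3
    have h5 : b * (2 * b - t g * a) = 0 := by linear_combination hrel - hdet3
    have h6 : 2 * b - t g * a = 0 := (mul_eq_zero.1 h5).resolve_left hb
    apply mul_left_cancel₀ ha
    linear_combination htr + h6
  · exact tr_det_of_not_isSc hV (h g) hs

/-! ### rank one -/

/-- the diagonal representation attached to two characters -/
def diagR (φ : Fin 2 → G →* R) : G →* End R (Fin 2 → R) where
  toFun g := LinearMap.pi fun i => φ i g • LinearMap.proj i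
  map_one' := by
    ext i j
    simp
  map_mul' g g' := by
    ext i j
    simp [mul_assoc]

lemma diagR_apply (φ : Fin 2 → G →* R) (g : G) (v : Fin 2 → R) (i : Fin 2) :
    diagR φ g v i = φ i g * v i := rfl

lemma charpoly_diagR (φ : Fin 2 → G →* R) (g : G) :
    (diagR φ g).charpoly = (X - C (φ 0 g)) * (X - C (φ 1 g)) := by
  have hm : LinearMap.toMatrix (Pi.basisFun R (Fin 2)) (Pi.basisFun R (Fin 2)) (diagR φ g) =
      Matrix.diagonal fun i => φ i g := by
    ext i j
    rw [LinearMap.toMatrix_apply, Pi.basisFun_repr, diagR_apply, Pi.basisFun_apply,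
      Matrix.diagonal_apply]
    by_cases hij : i = j
    · subst hij; simp
    · rw [if_neg hij, Pi.single_eq_of_ne hij, mul_zero]
  rw [← LinearMap.charpoly_toMatrix (diagR φ g) (Pi.basisFun R (Fin 2)), hm,
    Matrix.charpoly_diagonal, Fin.prod_univ_two]

/-- the twisted inverse character `g ↦ d g * ψ g⁻¹` -/
def twInvR (d : G →* Rˣ) (ψ : G →* R) : G →* R where
  toFun g := ((d g : Rˣ) : R) * ψ g⁻¹
  map_one' := by simp
  map_mul' g g' := by
    rw [map_mul, Units.val_mul, mul_inv_rev, map_mul]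
    ring

lemma eq_det_smul (hV : finrank R V = 1) (f : End R V) : f = LinearMap.det f • (1 : End R V) := by
  let b := Module.finBasisOfFinrankEq R V hV
  have hf : f = (b.repr (f (b 0)) 0) • (1 : End R V) := by
    apply b.ext
    intro i
    have hi : i = 0 := Subsingleton.elim _ _
    subst hi
    rw [LinearMap.smul_apply, End.one_apply]
    conv_lhs => rw [← b.sum_repr (f (b 0))]
    simp
  have hd : LinearMap.det f = b.repr (f (b 0)) 0 := by
    conv_lhs => rw [hf]
    rw [LinearMap.det_smul, hV, pow_one, map_one, mul_one]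
  rw [hd]
  exact hf

lemma mem_smul_top_pi {I : Ideal R} {w : Fin 2 → R} (hw : ∀ i, w i ∈ I) :
    w ∈ I • (⊤ : Submodule R (Fin 2 → R)) := by
  rw [← (Pi.basisFun R (Fin 2)).sum_repr w]
  refine Submodule.sum_mem _ fun i _ => ?_
  exact Submodule.smul_mem_smul (by simpa using hw i) Submodule.mem_top

lemma repr_mem_of_mem_smul_top {ι : Type*} (b : Basis ι R V) {I : Ideal R} {x : V}
    (hx : x ∈ I • (⊤ : Submodule R V)) (i : ι) : b.repr x i ∈ I := by
  refine Submodule.smul_induction_on hx ?_ ?_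
  · intro r hr y _
    rw [map_smul, Finsupp.smul_apply, smul_eq_mul]
    exact I.mul_mem_right _ hr
  · intro y z hy hz
    rw [map_add, Finsupp.add_apply]
    exact I.add_mem hy hz

/-- **CC, rank one**. -/
theorem rank_one_case (hV : finrank R V = 1) (σ : G →* End R V) (d : G →* Rˣ) (t : G → R)
    (h : ∀ g, σ g * σ g - t g • σ g + ((d g : Rˣ) : R) • (1 : End R V) = 0) :
    ∃ τ : G →* End R (Fin 2 → R),
      (∀ g, (τ g).charpoly = X ^ 2 - C (t g) * X + C ((d g : Rˣ) : R)) ∧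
      ∀ (g : G) (I : Ideal R), (∀ x, σ g x - x ∈ I • (⊤ : Submodule R V)) →
        ((d g : Rˣ) : R) - 1 ∈ I → ∀ v, τ g v - v ∈ I • (⊤ : Submodule R (Fin 2 → R)) := by
  have : Nontrivial V := Module.nontrivial_of_finrank_pos (R := R) (by omega)
  let b := Module.finBasisOfFinrankEq R V hV
  set ψ : G →* R := (LinearMap.det : End R V →* R).comp σ with hψ
  have hσ : ∀ g, σ g = ψ g • (1 : End R V) := fun g => eq_det_smul hV (σ g)
  have hinv : ∀ g, ψ g * ψ g⁻¹ = 1 := fun g => by rw [← map_mul, mul_inv_cancel, map_one]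
  have hone : ∀ r : R, r • (1 : End R V) = 0 → r = 0 := by
    intro r hr
    have h1 := congrArg (fun f : End R V => f (b 0)) hr
    simp only [LinearMap.smul_apply, Module.End.one_apply, LinearMap.zero_apply] at h1
    exact (smul_eq_zero.1 h1).resolve_right (b.ne_zero 0)
  have hquad : ∀ g, ψ g * ψ g - t g * ψ g + ((d g : Rˣ) : R) = 0 := by
    intro g
    apply hone
    have h1 := h g
    rw [hσ g] at h1
    rw [← h1]
    simp only [smul_mul_smul_comm, mul_one, smul_smul]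
    module
  have hsum : ∀ g, ψ g + ((d g : Rˣ) : R) * ψ g⁻¹ = t g := by
    intro g
    linear_combination (ψ g⁻¹) * hquad g + (t g - ψ g) * hinv g
  refine ⟨diagR ![ψ, twInvR d ψ], fun g => ?_, fun g I hI hd v => ?_⟩
  · rw [charpoly_diagR]
    have e0 : (![ψ, twInvR d ψ] : Fin 2 → G →* R) 0 g = ψ g := rfl
    have e1 : (![ψ, twInvR d ψ] : Fin 2 → G →* R) 1 g = ((d g : Rˣ) : R) * ψ g⁻¹ := rfl
    rw [e0, e1, ← hsum g]
    have hprod : C (ψ g) * C (((d g : Rˣ) : R) * ψ g⁻¹) = C ((d g : Rˣ) : R) := by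
      rw [← C_mul, mul_left_comm, hinv g, mul_one]
    rw [C_add]
    linear_combination hprod
  · have h1 : ψ g - 1 ∈ I := by
      have h2 := repr_mem_of_mem_smul_top b (hI (b 0)) 0
      rw [hσ g, LinearMap.smul_apply, End.one_apply, map_sub, map_smul] at h2
      simpa using h2
    have h3 : ((d g : Rˣ) : R) * ψ g⁻¹ - 1 ∈ I := by
      have e : ((d g : Rˣ) : R) * ψ g⁻¹ - 1 =
          ψ g⁻¹ * (((d g : Rˣ) : R) - 1) - ψ g⁻¹ * (ψ g - 1) := by
        linear_combination hinv g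
      rw [e]
      exact I.sub_mem (I.mul_mem_left _ hd) (I.mul_mem_left _ h1)
    apply mem_smul_top_pi
    intro i
    rw [Pi.sub_apply, diagR_apply]
    have e : ∀ r : R, r * v i - v i = (r - 1) * v i := fun r => by ring
    rw [e]
    apply I.mul_mem_right
    fin_cases i
    · exact h1
    · exact h3

end Domain

section Lattice

open scoped TensorProduct

variable {𝒪 : Type*} [CommRing 𝒪] [IsDomain 𝒪] {G : Type*} [Group G]
  {Λ : Type*} [AddCommGroup Λ] [Module 𝒪 Λ]

/-- restriction of a representation to a stable submodule -/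
def resR (ρ : G →* End 𝒪 Λ) (U : Submodule 𝒪 Λ) (hU : ∀ g, ∀ u ∈ U, ρ g u ∈ U) :
    G →* End 𝒪 U where
  toFun g := (ρ g).restrict (hU g)
  map_one' := by
    ext u
    simp
  map_mul' g g' := by
    ext u
    simp

lemma resR_apply (ρ : G →* End 𝒪 Λ) (U : Submodule 𝒪 Λ) (hU : ∀ g, ∀ u ∈ U, ρ g u ∈ U) (g : G)
    (u : U) : ((resR ρ U hU g u : U) : Λ) = ρ g u := rfl

lemma resR_rel {ρ : G →* End 𝒪 Λ} {d : G →* 𝒪ˣ} {t : G → 𝒪}
    (h : ∀ g, ρ g * ρ g - t g • ρ g + ((d g : 𝒪ˣ) : 𝒪) • (1 : End 𝒪 Λ) = 0)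
    (U : Submodule 𝒪 Λ) (hU : ∀ g, ∀ u ∈ U, ρ g u ∈ U) (g : G) :
    resR ρ U hU g * resR ρ U hU g - t g • resR ρ U hU g + ((d g : 𝒪ˣ) : 𝒪) • (1 : End 𝒪 U) = 0 := by
  ext u
  have := congrArg (fun f : End 𝒪 Λ => f (u : Λ)) (h g)
  simpa [resR_apply] using this

/-- base change of a representation -/
def bc (K : Type*) [Field K] [Algebra 𝒪 K] (ρ : G →* End 𝒪 Λ) : G →* End K (K ⊗[𝒪] Λ) where
  toFun g := (ρ g).baseChange K
  map_one' := by rw [map_one, LinearMap.baseChange_one]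
  map_mul' g g' := by rw [map_mul, LinearMap.baseChange_mul]

lemma bc_tmul (K : Type*) [Field K] [Algebra 𝒪 K] (ρ : G →* End 𝒪 Λ) (g : G) (a : K) (x : Λ) :
    bc K ρ g (a ⊗ₜ x) = a ⊗ₜ ρ g x := LinearMap.baseChange_tmul _ _ _

lemma bc_rel (K : Type*) [Field K] [Algebra 𝒪 K] {ρ : G →* End 𝒪 Λ} {d : G →* 𝒪ˣ} {t : G → 𝒪}
    (h : ∀ g, ρ g * ρ g - t g • ρ g + ((d g : 𝒪ˣ) : 𝒪) • (1 : End 𝒪 Λ) = 0) (g : G) :
    bc K ρ g * bc K ρ g - algebraMap 𝒪 K (t g) • bc K ρ g +
      ((((Units.map (algebraMap 𝒪 K : 𝒪 →* K)).comp d) g : Kˣ) : K) •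
        (1 : End K (K ⊗[𝒪] Λ)) = 0 := by
  have h1 := congrArg (LinearMap.baseChange K) (h g)
  rw [LinearMap.baseChange_add, LinearMap.baseChange_sub, LinearMap.baseChange_mul,
    LinearMap.baseChange_smul, LinearMap.baseChange_smul, LinearMap.baseChange_one,
    LinearMap.baseChange_zero] at h1
  rw [← h1]
  simp only [algebraMap_smul, MonoidHom.comp_apply, Units.coe_map, MonoidHom.coe_coe]
  rfl

variable (K : Type*) [Field K] [Algebra 𝒪 K] [IsFractionRing 𝒪 K]

/-- the lattice `U ∩ Λ` -/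
def lat (U : Submodule K (K ⊗[𝒪] Λ)) : Submodule 𝒪 Λ :=
  (U.restrictScalars 𝒪).comap (TensorProduct.mk 𝒪 K Λ 1)

variable {K}

lemma mem_lat {U : Submodule K (K ⊗[𝒪] Λ)} {x : Λ} : x ∈ lat K U ↔ (1 : K) ⊗ₜ[𝒪] x ∈ U := Iff.rfl

lemma lat_sat {U : Submodule K (K ⊗[𝒪] Λ)} {a : 𝒪} (ha : a ≠ 0) {y : Λ}
    (h : a • y ∈ lat K U) : y ∈ lat K U := by
  rw [mem_lat, TensorProduct.tmul_smul, ← algebraMap_smul K] at h
  rw [mem_lat]
  exact (U.smul_mem_iff (by simpa using ha)).1 h

/-- the map `U ∩ Λ → U` -/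
def latMap (U : Submodule K (K ⊗[𝒪] Λ)) : lat K U →ₗ[𝒪] U where
  toFun x := ⟨(1 : K) ⊗ₜ[𝒪] (x : Λ), x.2⟩
  map_add' x y := Subtype.ext (by simp [TensorProduct.tmul_add])
  map_smul' a x := Subtype.ext (by simp)

instance (U : Submodule K (K ⊗[𝒪] Λ)) : IsLocalizedModule (nonZeroDivisors 𝒪) (latMap U) where
  map_units := (isLocalizedModule_id (nonZeroDivisors 𝒪) U K).map_units
  surj y := by
    obtain ⟨⟨x, s⟩, hx⟩ := IsLocalizedModule.surj (nonZeroDivisors 𝒪)
      (TensorProduct.mk 𝒪 K Λ 1) (y : K ⊗[𝒪] Λ)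
    have hx' : (1 : K) ⊗ₜ[𝒪] x = s • (y : K ⊗[𝒪] Λ) := hx.symm
    refine ⟨⟨⟨x, ?_⟩, s⟩, Subtype.ext hx⟩
    rw [mem_lat, hx']
    exact Submodule.smul_of_tower_mem U s y.2
  exists_of_eq {x₁ x₂} h := by
    have h1 : (TensorProduct.mk 𝒪 K Λ 1) (x₁ : Λ) = (TensorProduct.mk 𝒪 K Λ 1) (x₂ : Λ) :=
      congrArg Subtype.val h
    obtain ⟨c, hc⟩ := IsLocalizedModule.exists_of_eq (S := nonZeroDivisors 𝒪) h1
    exact ⟨c, Subtype.ext hc⟩

lemma finrank_lat (U : Submodule K (K ⊗[𝒪] Λ)) : finrank 𝒪 (lat K U) = finrank K U := by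
  have h1 := IsLocalizedModule.finrank_eq (R := 𝒪) (M := lat K U) (N := U) (nonZeroDivisors 𝒪)
    (latMap U) le_rfl
  rw [← h1]
  exact (IsFractionRing.finrank_right_eq (R := 𝒪) (S := K) (N := U)).symm

lemma latMap_injective [Module.Free 𝒪 Λ] (U : Submodule K (K ⊗[𝒪] Λ)) :
    Function.Injective (latMap U) := by
  intro x₁ x₂ h
  obtain ⟨c, hc⟩ := IsLocalizedModule.exists_of_eq (S := nonZeroDivisors 𝒪) h
  exact smul_right_injective _ (nonZeroDivisors.coe_ne_zero c) hc

/-- an eigenvector of `g` in `U` gives an eigenvector in `U ∩ Λ` -/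
lemma exists_eigen [Module.Free 𝒪 Λ] {ρ : G →* End 𝒪 Λ} {U : Submodule K (K ⊗[𝒪] Λ)}
    (hst : ∀ g, ∀ x ∈ lat K U, ρ g x ∈ lat K U) {g : G} {u : K ⊗[𝒪] Λ} (hu : u ∈ U) (hu0 : u ≠ 0)
    {ε : 𝒪} (hg : bc K ρ g u = ε • u) :
    ∃ x : lat K U, x ≠ 0 ∧ resR ρ _ hst g x = ε • x := by
  obtain ⟨⟨x, s⟩, hx⟩ := IsLocalizedModule.surj (nonZeroDivisors 𝒪) (latMap U) ⟨u, hu⟩
  have hx' : (1 : K) ⊗ₜ[𝒪] (x : Λ) = (s : 𝒪) • u := (congrArg Subtype.val hx).symm
  refine ⟨x, ?_, ?_⟩
  · rintro rfl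
    have h0 : (s : 𝒪) • u = 0 := by rw [← hx']; simp
    rw [← algebraMap_smul K, smul_eq_zero] at h0
    rcases h0 with h0 | h0
    · exact nonZeroDivisors.coe_ne_zero s (by simp at h0)
    · exact hu0 h0
  · apply latMap_injective U
    apply Subtype.ext
    change (1 : K) ⊗ₜ[𝒪] (ρ g (x : Λ)) = (1 : K) ⊗ₜ[𝒪] (ε • (x : Λ))
    rw [← bc_tmul, hx', TensorProduct.tmul_smul, hx', ← algebraMap_smul K (s : 𝒪) u, map_smul, hg,
      smul_comm]

/-- congruences pass to the saturated sublattice -/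
lemma mem_smul_top_lat [IsPrincipalIdealRing 𝒪] (U : Submodule K (K ⊗[𝒪] Λ)) (I : Ideal 𝒪)
    (x : lat K U) (hx : (x : Λ) ∈ I • (⊤ : Submodule 𝒪 Λ)) :
    x ∈ I • (⊤ : Submodule 𝒪 (lat K U)) := by
  obtain ⟨a, rfl⟩ := (IsPrincipalIdealRing.principal I).principal
  change (x : Λ) ∈ Ideal.span {a} • (⊤ : Submodule 𝒪 Λ) at hx
  change x ∈ Ideal.span {a} • (⊤ : Submodule 𝒪 (lat K U))
  rw [Submodule.ideal_span_singleton_smul, Submodule.mem_smul_pointwise_iff_exists] at hx ⊢
  obtain ⟨y, -, hy⟩ := hx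
  by_cases ha : a = 0
  · refine ⟨0, Submodule.mem_top, ?_⟩
    apply Subtype.ext
    rw [← hy, ha]
    simp
  · exact ⟨⟨y, lat_sat ha (by rw [hy]; exact x.2)⟩, Submodule.mem_top, Subtype.ext hy⟩

end Lattice

/-- **CC, integral form** (the form used for S30).  `𝒪` a principal ideal domain with `2 ≠ 0`,
`Λ ≠ 0` a finite free module with an action of `G` satisfying `g² - t(g) g + d(g) = 0`, `c` an
involution with `d(c) = -1`.  Then there is a free module of rank two with an action of `G` with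
characteristic polynomials `X² - t(g) X + d(g)`, and every congruence `g ≡ 1` on `Λ`,
`d(g) ≡ 1` modulo an ideal `I` passes to it. -/
theorem exists_rep {𝒪 : Type} [CommRing 𝒪] [IsDomain 𝒪] [IsPrincipalIdealRing 𝒪]
    (h2 : (2 : 𝒪) ≠ 0) {G : Type*} [Group G] {Λ : Type} [AddCommGroup Λ] [Module 𝒪 Λ]
    [Module.Free 𝒪 Λ] [Module.Finite 𝒪 Λ] [Nontrivial Λ] (ρ : G →* End 𝒪 Λ) (d : G →* 𝒪ˣ)
    (t : G → 𝒪)
    (h : ∀ g, ρ g * ρ g - t g • ρ g + ((d g : 𝒪ˣ) : 𝒪) • (1 : End 𝒪 Λ) = 0)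
    {c : G} (hc : c * c = 1) (hdc : d c = -1) :
    ∃ (V : Type) (_ : AddCommGroup V) (_ : Module 𝒪 V) (_ : Module.Free 𝒪 V)
      (_ : Module.Finite 𝒪 V) (τ : G →* End 𝒪 V), finrank 𝒪 V = 2 ∧
      (∀ g, (τ g).charpoly = X ^ 2 - C (t g) * X + C ((d g : 𝒪ˣ) : 𝒪)) ∧
      ∀ (g : G) (I : Ideal 𝒪), (∀ x, ρ g x - x ∈ I • (⊤ : Submodule 𝒪 Λ)) →
        ((d g : 𝒪ˣ) : 𝒪) - 1 ∈ I → ∀ v, τ g v - v ∈ I • (⊤ : Submodule 𝒪 V) := by
  have h2K : (2 : FractionRing 𝒪) ≠ 0 := by
    have := (map_ne_zero_iff (algebraMap 𝒪 (FractionRing 𝒪))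
      (IsFractionRing.injective 𝒪 (FractionRing 𝒪))).2 h2
    rwa [map_ofNat] at this
  have : Nontrivial (TensorProduct 𝒪 (FractionRing 𝒪) Λ) :=
    Module.nontrivial_of_finrank_pos (R := FractionRing 𝒪)
      (by rw [Module.finrank_baseChange]; exact Module.finrank_pos)
  have hdcK : ((Units.map (algebraMap 𝒪 (FractionRing 𝒪) : 𝒪 →* FractionRing 𝒪)).comp d) c
      = -1 := by
    rw [MonoidHom.comp_apply, hdc]
    apply Units.ext
    simp
  obtain ⟨U, hU, hcase⟩ := exists_stable h2K (bc_rel (FractionRing 𝒪) h) hc hdcK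
  have hst : ∀ g, ∀ x ∈ lat (FractionRing 𝒪) U, ρ g x ∈ lat (FractionRing 𝒪) U := by
    intro g x hx
    rw [mem_lat, ← bc_tmul]
    exact hU g _ hx
  have hcong : ∀ (g : G) (I : Ideal 𝒪), (∀ x, ρ g x - x ∈ I • (⊤ : Submodule 𝒪 Λ)) →
      ∀ x : lat (FractionRing 𝒪) U, resR ρ _ hst g x - x ∈
        I • (⊤ : Submodule 𝒪 (lat (FractionRing 𝒪) U)) :=
    fun g I hI x => mem_smul_top_lat U I _ (hI x)
  rcases hcase with h1 | ⟨h2', u, hu, v, hv, hu0, hv0, hcu, hcv⟩
  · obtain ⟨τ, hτ1, hτ2⟩ := rank_one_case (V := lat (FractionRing 𝒪) U)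
      (by rw [finrank_lat, h1]) (resR ρ _ hst) d t (resR_rel h _ hst)
    exact ⟨Fin 2 → 𝒪, inferInstance, inferInstance, inferInstance, inferInstance, τ, by simp, hτ1,
      fun g I hI hd => hτ2 g I (hcong g I hI) hd⟩
  · obtain ⟨x, hx0, hx⟩ := exists_eigen hst hu hu0 (ε := 1) (by rw [hcu, one_smul])
    obtain ⟨y, hy0, hy⟩ := exists_eigen hst hv hv0 (ε := -1) (by rw [hcv]; exact (neg_one_smul 𝒪 v).symm)
    rw [one_smul] at hx
    rw [neg_smul, one_smul] at hy
    have hfr : finrank 𝒪 (lat (FractionRing 𝒪) U) = 2 := by rw [finrank_lat, h2']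
    exact ⟨lat (FractionRing 𝒪) U, inferInstance, inferInstance, inferInstance, inferInstance,
      resR ρ _ hst, hfr,
      charpoly_of_rel h2 hfr (resR ρ _ hst) d t (resR_rel h _ hst) hdc hx0 hy0 hx hy,
      fun g I hI _ => hcong g I hI⟩

end Fermat.Agent.S30.CC

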