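import Fermat.Agent.S31.CycN

/-!
# S30, package [CYC] : the `p`-adic cyclotomic character with values in a complete local ring
-/

set_option autoImplicit false
set_option linter.style.haveILetI false
set_option linter.unusedSectionVars false

namespace Fermat.Agent.S30

open Fermat.Agent.S24 Fermat.Agent.ES Fermat.Agent.S31 IsLocalRing

namespace Cyc

variable {p : ℕ} [Fact p.Prime]

/-- A ring homomorphism from `ℤ_p` to a ring killed by `p ^ m` is `x ↦ appr x m`. -/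
theorem ringHom_apply_eq_appr {R : Type*} [CommRing R] (g : ℤ_[p] →+* R) (m : ℕ)
    (h : (p : R) ^ m = 0) (x : ℤ_[p]) : g x = (x.appr m : R) := by
  have h1 := PadicInt.appr_spec m x
  rw [Ideal.mem_span_singleton] at h1
  obtain ⟨y, hy⟩ := h1
  have h2 : x = (x.appr m : ℤ_[p]) + (p : ℤ_[p]) ^ m * y := by rw [← hy]; ring
  conv_lhs => rw [h2]
  rw [map_add, map_mul, map_pow, map_natCast, map_natCast, h, zero_mul, add_zero]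

section Hom

variable (p) (𝒪 : Type*) [CommRing 𝒪] (I : Ideal 𝒪)

theorem natCast_pow_eq_zero (hp : (p : 𝒪) ∈ I) (n : ℕ) : (p : 𝒪 ⧸ I ^ n) ^ n = 0 := by
  have : Ideal.Quotient.mk (I ^ n) ((p : 𝒪) ^ n) = 0 :=
    Ideal.Quotient.eq_zero_iff_mem.mpr (Ideal.pow_mem_pow hp n)
  simpa using this

/-- the level `n` map `ℤ_p → 𝒪 / I ^ n`. -/
noncomputable def levelHom (hp : (p : 𝒪) ∈ I) (n : ℕ) : ℤ_[p] →+* 𝒪 ⧸ I ^ n :=
  (ZMod.castHom (ringChar.dvd (R := 𝒪 ⧸ I ^ n) (x := p ^ n)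
    (by simpa using natCast_pow_eq_zero p 𝒪 I hp n)) (𝒪 ⧸ I ^ n)).comp (PadicInt.toZModPow n)

/-- the canonical ring homomorphism `ℤ_p → 𝒪` for an `I`-adically complete ring with `p ∈ I`. -/
noncomputable def padicHom [IsAdicComplete I 𝒪] (hp : (p : 𝒪) ∈ I) : ℤ_[p] →+* 𝒪 :=
  IsAdicComplete.liftRingHom I (levelHom p 𝒪 I hp) (by
    intro m n hle
    ext x
    have hm := natCast_pow_eq_zero p 𝒪 I hp m
    rw [ringHom_apply_eq_appr _ m hm, ringHom_apply_eq_appr _ m hm])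

end Hom

instance instHasEnough (i : ℕ) : HasEnoughRootsOfUnity Kb (p ^ i) := by
  haveI : NeZero (p ^ i) := ⟨pow_ne_zero _ (Fact.out : p.Prime).ne_zero⟩
  infer_instance

variable (p) in
/-- the `p`-adic cyclotomic character of `GQ`. -/
noncomputable def cycZp : GQ →* ℤ_[p]ˣ :=
  (cyclotomicCharacter Kb p).comp (MulSemiringAction.toRingAut GQ Kb)

theorem cycZp_spec (σ : GQ) {n : ℕ} (t : Kb) (ht : t ^ p ^ n = 1) :
    σ t = t ^ (((cycZp p σ : ℤ_[p]ˣ) : ℤ_[p]).toZModPow n).val :=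
  cyclotomicCharacter.spec p (MulSemiringAction.toRingAut GQ Kb σ) t ht

/-- characterisation of `cycZp σ` modulo `p ^ n`. -/
theorem toZModPow_cycZp_eq (σ : GQ) (n : ℕ) {ζ : Kb} (hζ : IsPrimitiveRoot ζ (p ^ n)) (a : ℕ)
    (h : σ ζ = ζ ^ a) : ((cycZp p σ : ℤ_[p]ˣ) : ℤ_[p]).toZModPow n = (a : ZMod (p ^ n)) := by
  have hpn : 0 < p ^ n := pow_pos (Fact.out : p.Prime).pos n
  haveI : NeZero (p ^ n) := ⟨hpn.ne'⟩
  have h1 := cycZp_spec σ ζ hζ.pow_eq_one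
  rw [h] at h1
  have hfin : IsOfFinOrder ζ := isOfFinOrder_iff_pow_eq_one.mpr ⟨p ^ n, hpn, hζ.pow_eq_one⟩
  have h2 := hfin.pow_eq_pow_iff_modEq.mp h1
  rw [← hζ.eq_orderOf] at h2
  have h3 := (ZMod.natCast_eq_natCast_iff _ _ _).mpr h2
  rw [h3, ZMod.natCast_zmod_val]

theorem exists_primitiveRoot_pow (p : ℕ) [Fact p.Prime] (n : ℕ) :
    ∃ ζ : Kb, IsPrimitiveRoot ζ (p ^ n) := by
  haveI : NeZero (p ^ n) := ⟨pow_ne_zero _ (Fact.out : p.Prime).ne_zero⟩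
  exact ECyc.exists_primitiveRoot (p ^ n)

theorem cycZp_sub_mem (σ : GQ) (n a : ℕ) (h : ∀ μ : Kb, μ ^ p ^ n = 1 → σ μ = μ ^ a) :
    ((cycZp p σ : ℤ_[p]ˣ) : ℤ_[p]) - a ∈ Ideal.span {(p : ℤ_[p]) ^ n} := by
  obtain ⟨ζ, hζ⟩ := exists_primitiveRoot_pow p n
  rw [← PadicInt.ker_toZModPow, RingHom.mem_ker, map_sub, map_natCast,
    toZModPow_cycZp_eq σ n hζ a (h ζ hζ.pow_eq_one), sub_self]

theorem cycZp_eq_natCast (σ : GQ) (a : ℕ)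
    (h : ∀ (n : ℕ) (ζ : Kb), IsPrimitiveRoot ζ (p ^ n) → σ ζ = ζ ^ a) :
    ((cycZp p σ : ℤ_[p]ˣ) : ℤ_[p]) = a := by
  refine PadicInt.ext_of_toZModPow.mp fun n => ?_
  obtain ⟨ζ, hζ⟩ := exists_primitiveRoot_pow p n
  rw [toZModPow_cycZp_eq σ n hζ a (h n ζ hζ), map_natCast]

theorem cycZp_eq_neg_one (σ : GQ)
    (h : ∀ (n : ℕ) (ζ : Kb), IsPrimitiveRoot ζ (p ^ n) → σ ζ = ζ⁻¹) :
    ((cycZp p σ : ℤ_[p]ˣ) : ℤ_[p]) = -1 := by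
  refine PadicInt.ext_of_toZModPow.mp fun n => ?_
  obtain ⟨ζ, hζ⟩ := exists_primitiveRoot_pow p n
  have hpn : 0 < p ^ n := pow_pos (Fact.out : p.Prime).pos n
  have h1 : σ ζ = ζ ^ (p ^ n - 1) := by
    rw [h n ζ hζ]
    have hζ0 : ζ ≠ 0 := hζ.ne_zero hpn.ne'
    apply mul_left_cancel₀ hζ0
    rw [mul_inv_cancel₀ hζ0, ← pow_succ', Nat.sub_add_cancel hpn, hζ.pow_eq_one]
  rw [toZModPow_cycZp_eq σ n hζ _ h1, map_neg, map_one, Nat.cast_sub hpn]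
  simp

/-! ### complex conjugation -/

/-- There is an involution of `ℚ̄` inverting all roots of unity. -/
theorem exists_conj : ∃ c : GQ, c * c = 1 ∧ ∀ (n : ℕ) (ζ : Kb), n ≠ 0 → ζ ^ n = 1 → c ζ = ζ⁻¹ := by
  haveI hcl : IsAlgClosure ℚ Kb := @AlgebraicClosure.instIsAlgClosure ℚ _
  haveI : Algebra.IsAlgebraic ℚ Kb := hcl.isAlgebraic
  let ι : Kb →ₐ[ℚ] ℂ := IsAlgClosed.lift
  letI : Algebra Kb ℂ := ι.toRingHom.toAlgebra
  haveI : IsScalarTower ℚ Kb ℂ := IsScalarTower.of_algebraMap_eq fun q => (ι.commutes q).symm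
  haveI : Normal ℚ Kb := IsAlgClosure.normal ℚ Kb
  let conj : ℂ ≃ₐ[ℚ] ℂ := Complex.conjAe.restrictScalars ℚ
  let c : GQ := conj.restrictNormal Kb
  have hc : ∀ x : Kb, ι (c x) = (starRingEnd ℂ) (ι x) := fun x =>
    AlgEquiv.restrictNormal_commutes conj Kb x
  refine ⟨c, ?_, fun n ζ hn hζ => ?_⟩
  · ext x
    apply ι.toRingHom.injective
    show ι (c (c x)) = ι x
    rw [hc, hc, Complex.conj_conj]
  · apply ι.toRingHom.injective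
    show ι (c ζ) = ι ζ⁻¹
    rw [hc, map_inv₀]
    have h1 : ‖ι ζ‖ = 1 := Complex.norm_eq_one_of_pow_eq_one (by rw [← map_pow, hζ, map_one]) hn
    exact (Complex.inv_eq_conj h1).symm

end Cyc

open Cyc

/-- **S30 [CYC]** : the `p`-adic cyclotomic character with values in a complete local ring. -/
theorem exists_adicCyc (p : ℕ) [Fact p.Prime] (𝒪 : Type) [CommRing 𝒪] [IsLocalRing 𝒪]
    [IsAdicComplete (maximalIdeal 𝒪) 𝒪] (hp : (p : 𝒪) ∈ maximalIdeal 𝒪) :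
    ∃ χ : GQ →* 𝒪ˣ,
      (∀ (n : ℕ) (σ : GQ) (a : ℕ), (∀ μ : Kb, μ ^ p ^ n = 1 → σ μ = μ ^ a) →
        ((χ σ : 𝒪ˣ) : 𝒪) - a ∈ Ideal.span {((p ^ n : ℕ) : 𝒪)}) ∧
      (∀ n : ℕ, ∃ L : IntermediateField ℚ Kb, FiniteDimensional ℚ L ∧
        ∀ σ : GQ, (∀ x ∈ L, σ x = x) → ((χ σ : 𝒪ˣ) : 𝒪) - 1 ∈ Ideal.span {((p ^ n : ℕ) : 𝒪)}) ∧
      (∀ ℓ : ℕ, ℓ.Prime → ℓ ≠ p → ∀ A : ValuationSubring Kb, A.LiesOverPrime ℓ →
        (∀ τ ∈ A.inertiaSubgroupIn ℚ, χ τ = 1) ∧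
        (∀ σ : GQ, A.IsFrobeniusAt σ ℓ → ((χ σ : 𝒪ˣ) : 𝒪) = (ℓ : 𝒪))) ∧
      (∃ c : GQ, c * c = 1 ∧ ((χ c : 𝒪ˣ) : 𝒪) = -1) := by
  have hpp : p.Prime := Fact.out
  let φ : ℤ_[p] →+* 𝒪 := padicHom p 𝒪 (maximalIdeal 𝒪) hp
  let χ : GQ →* 𝒪ˣ := (Units.map (φ : ℤ_[p] →* 𝒪)).comp (cycZp p)
  have hχ : ∀ σ : GQ, ((χ σ : 𝒪ˣ) : 𝒪) = φ ((cycZp p σ : ℤ_[p]ˣ) : ℤ_[p]) := fun σ => rfl
  have hspec : ∀ (n : ℕ) (σ : GQ) (a : ℕ), (∀ μ : Kb, μ ^ p ^ n = 1 → σ μ = μ ^ a) →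
      ((χ σ : 𝒪ˣ) : 𝒪) - a ∈ Ideal.span {((p ^ n : ℕ) : 𝒪)} := by
    intro n σ a h
    have h1 := cycZp_sub_mem σ n a h
    rw [Ideal.mem_span_singleton] at h1 ⊢
    obtain ⟨y, hy⟩ := h1
    refine ⟨φ y, ?_⟩
    rw [hχ, ← map_natCast φ a, ← map_sub, hy, map_mul, map_pow, map_natCast]
    push_cast
    rfl
  -- local behaviour
  have hloc : ∀ ℓ : ℕ, ℓ.Prime → ℓ ≠ p → ∀ A : ValuationSubring Kb, A.LiesOverPrime ℓ →
      ∀ (s : A.decompositionSubgroup ℚ) (m : ℕ),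
        (∀ z : IsLocalRing.ResidueField A, s • z = z ^ m) →
        ((cycZp p (s : GQ) : ℤ_[p]ˣ) : ℤ_[p]) = m := by
    intro ℓ hℓ hℓp A hA s m hs
    refine cycZp_eq_natCast _ m fun n ζ hζ => ?_
    haveI : NeZero (p ^ n) := ⟨pow_ne_zero _ hpp.ne_zero⟩
    have hℓn : ¬ ℓ ∣ p ^ n := fun h =>
      hℓp ((Nat.prime_dvd_prime_iff_eq hℓ hpp).mp (hℓ.dvd_of_dvd_pow h))
    have h1 := CycN.autToPow_eq hζ hℓ hℓn hA s m hs
    have h2 : ζ ^ ((hζ.autToPow ℚ (s : GQ) : (ZMod (p ^ n))ˣ) : ZMod (p ^ n)).val = (s : GQ) ζ :=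
      hζ.autToPow_spec ℚ (s : GQ)
    rw [← h2, h1]
    have hfin : IsOfFinOrder ζ :=
      isOfFinOrder_iff_pow_eq_one.mpr ⟨p ^ n, pow_pos hpp.pos n, hζ.pow_eq_one⟩
    rw [hfin.pow_eq_pow_iff_modEq, ← hζ.eq_orderOf, ← ZMod.natCast_eq_natCast_iff,
      ZMod.natCast_zmod_val]
  refine ⟨χ, hspec, fun n => ?_, fun ℓ hℓ hℓp A hA => ⟨?_, ?_⟩, ?_⟩
  · obtain ⟨ζ, hζ⟩ := exists_primitiveRoot_pow p n
    have hpn : 0 < p ^ n := pow_pos hpp.pos n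
    haveI : NeZero (p ^ n) := ⟨hpn.ne'⟩
    refine ⟨IntermediateField.adjoin ℚ {ζ},
      IntermediateField.adjoin.finiteDimensional (hζ.isIntegral hpn).tower_top, fun σ hσ => ?_⟩
    have h1 : σ ζ = ζ := hσ ζ (IntermediateField.mem_adjoin_simple_self ℚ ζ)
    have h2 := hspec n σ 1 (fun μ hμ => by
      obtain ⟨i, -, rfl⟩ := hζ.eq_pow_of_pow_eq_one hμ
      rw [map_pow, h1, pow_one])
    simpa using h2
  · rintro τ ⟨τ', hτ', rfl⟩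
    have h1 : ∀ z : IsLocalRing.ResidueField A, τ' • z = z ^ 1 := fun z => by
      have := DFunLike.congr_fun (show MulSemiringAction.toRingAut (A.decompositionSubgroup ℚ)
        (IsLocalRing.ResidueField A) τ' = 1 from hτ') z
      rw [pow_one]
      exact this
    have h2 := hloc ℓ hℓ hℓp A hA τ' 1 h1
    ext
    rw [hχ]
    show φ ((cycZp p (τ' : GQ) : ℤ_[p]ˣ) : ℤ_[p]) = _
    rw [h2]
    simp
  · intro σ hσ
    have h2 := hloc ℓ hℓ hℓp A hA ⟨σ, hσ.mem_decompositionSubgroup⟩ ℓ hσ.smul_residue_eq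
    rw [hχ]
    show φ ((cycZp p σ : ℤ_[p]ˣ) : ℤ_[p]) = _
    rw [h2, map_natCast]
  · obtain ⟨c, hc1, hc2⟩ := exists_conj
    refine ⟨c, hc1, ?_⟩
    rw [hχ, cycZp_eq_neg_one c fun n ζ hζ =>
      hc2 (p ^ n) ζ (pow_ne_zero _ hpp.ne_zero) hζ.pow_eq_one, map_neg, map_one]

end Fermat.Agent.S30
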