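import Fermat.Agent.S30.Base

/-!
# S30, package EIG : eigenvectors of a faithful commutative ring of integer matrices

`T` a commutative ring of integer matrices, `χ : T →+* 𝒪` a character with values in a domain of
characteristic zero.  Then `χ` occurs in `𝒪 ^ d`.
-/

set_option autoImplicit false

namespace Fermat.Agent.S30

open scoped TensorProduct

namespace Eig

/-- a character of a finite dimensional commutative algebra occurs in its socle. -/
theorem exists_socle {K A : Type*} [Field K] [CommRing A] [Algebra K A] [FiniteDimensional K A]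
    (φ : A →ₐ[K] K) : ∃ a : A, a ≠ 0 ∧ ∀ y : A, y * a = algebraMap K A (φ y) * a := by
  classical
  have hart : IsArtinianRing A := IsArtinianRing.of_finite K A
  have hnoe : IsNoetherianRing A := inferInstance
  set m : Ideal A := RingHom.ker (φ : A →+* K) with hm
  have hmem : ∀ y : A, y ∈ m ↔ φ y = 0 := fun y => RingHom.mem_ker
  obtain ⟨n, hn⟩ := IsArtinian.monotone_stabilizes (R := A) (M := A)
    ⟨fun n => OrderDual.toDual (m ^ n), fun i j hij => Ideal.pow_le_pow_right hij⟩
  have hn1 : m ^ n = m ^ (n + 1) := hn (n + 1) (Nat.le_succ n)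
  obtain ⟨r, hr1, hr⟩ := Submodule.exists_sub_one_mem_and_smul_eq_zero_of_fg_of_le_smul m (m ^ n)
    (IsNoetherian.noetherian _) (by
      rw [smul_eq_mul, ← pow_succ', ← hn1])
  have hφr : φ r = 1 := by
    have := (hmem _).1 hr1
    rwa [map_sub, map_one, sub_eq_zero] at this
  have hr0 : r ≠ 0 := by
    rintro rfl
    rw [map_zero] at hφr
    exact zero_ne_one hφr
  have hex : ∃ j : ℕ, ∀ y ∈ m ^ j, r * y = 0 := ⟨n, fun y hy => hr y hy⟩
  have hj := Nat.find_spec hex
  have hj0 : Nat.find hex ≠ 0 := by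
    intro h0
    rw [h0] at hj
    exact hr0 (by simpa using hj 1 (by simp))
  obtain ⟨i, hi⟩ := Nat.exists_eq_succ_of_ne_zero hj0
  have hmin := Nat.find_min hex (m := i) (by omega)
  push_neg at hmin
  obtain ⟨b, hb, hrb⟩ := hmin
  refine ⟨r * b, hrb, fun y => ?_⟩
  have hy : y - algebraMap K A (φ y) ∈ m := by
    rw [hmem, map_sub, AlgHom.commutes, Algebra.algebraMap_self_apply, sub_self]
  have h1 : (y - algebraMap K A (φ y)) * b ∈ m ^ (Nat.find hex) := by
    rw [hi, Nat.succ_eq_add_one, pow_succ']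
    exact Ideal.mul_mem_mul hy hb
  have h2 := hj _ h1
  rw [← sub_eq_zero, ← sub_mul]
  calc (y - algebraMap K A (φ y)) * (r * b) = r * ((y - algebraMap K A (φ y)) * b) := by ring
    _ = 0 := h2

/-- the field version of `exists_eigen`. -/
theorem exists_eigen_field {T : Type*} [CommRing T] {d : ℕ} (τ : T →+* Matrix (Fin d) (Fin d) ℤ)
    (hτ : Function.Injective τ) {K : Type*} [Field K] [CharZero K] (χ : T →+* K) :
    ∃ v : Fin d → K, v ≠ 0 ∧ ∀ t : T, (toO K (τ t)).mulVec v = χ t • v := by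
  classical
  have hfinT : Module.Finite ℤ T := Module.Finite.of_injective τ.toIntAlgHom.toLinearMap hτ
  -- the two algebra homomorphisms on `K ⊗ T`
  let χK : K ⊗[ℤ] T →ₐ[K] K :=
    Algebra.TensorProduct.lift (AlgHom.id K K) χ.toIntAlgHom (fun _ _ => Commute.all _ _)
  let ρ0 : T →ₐ[ℤ] Matrix (Fin d) (Fin d) K := ((Int.castRingHom K).mapMatrix.comp τ).toIntAlgHom
  let ρK : K ⊗[ℤ] T →ₐ[K] Matrix (Fin d) (Fin d) K :=
    Algebra.TensorProduct.lift (Algebra.ofId K _) ρ0
      (fun c t => (Algebra.commutes c (ρ0 t)))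
  have hρ0 : ∀ t, ρ0 t = toO K (τ t) := fun t => rfl
  have hρK : ∀ x, ρK x
      = (matrixEquivTensor (Fin d) ℤ K).symm (LinearMap.lTensor K τ.toIntAlgHom.toLinearMap x) := by
    intro x
    induction x using TensorProduct.induction_on with
    | zero => simp
    | tmul c t =>
      rw [Algebra.TensorProduct.lift_tmul, LinearMap.lTensor_tmul, matrixEquivTensor_apply_symm,
        Algebra.ofId_apply, ← Algebra.smul_def]
      rfl
    | add x y hx hy => rw [map_add, map_add, map_add, hx, hy]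
  have hinj : Function.Injective ρK := by
    intro x y hxy
    rw [hρK, hρK] at hxy
    exact Module.Flat.lTensor_preserves_injective_linearMap (M := K) _ hτ
      ((matrixEquivTensor (Fin d) ℤ K).symm.injective hxy)
  obtain ⟨a, ha0, ha⟩ := exists_socle χK
  have hρa : ρK a ≠ 0 := fun h => ha0 (hinj (by rw [h, map_zero]))
  obtain ⟨i, j, hij⟩ : ∃ i j, ρK a i j ≠ 0 := by
    by_contra hcon
    push_neg at hcon
    exact hρa (Matrix.ext hcon)
  refine ⟨fun i' => ρK a i' j, fun h => hij (congrFun h i), fun t => ?_⟩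
  have h1 := ha (1 ⊗ₜ[ℤ] t)
  have h2 : χK (1 ⊗ₜ[ℤ] t) = χ t := by
    rw [Algebra.TensorProduct.lift_tmul]
    simp
  have h3 : ρK (1 ⊗ₜ[ℤ] t) = toO K (τ t) := by
    rw [Algebra.TensorProduct.lift_tmul, map_one, one_mul, hρ0]
  have h4 := congrArg ρK h1
  rw [map_mul, map_mul, h3, h2, AlgHom.commutes, ← Algebra.smul_def] at h4
  funext i'
  have h5 := congrFun (congrFun h4 i') j
  rw [Matrix.mul_apply] at h5
  rw [Matrix.mulVec, dotProduct, h5]
  rfl

end Eig

open Eig

/-- **S30-EIG**. -/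
theorem exists_eigen {T : Type*} [CommRing T] {d : ℕ} (τ : T →+* Matrix (Fin d) (Fin d) ℤ)
    (hτ : Function.Injective τ) {𝒪 : Type*} [CommRing 𝒪] [IsDomain 𝒪] [CharZero 𝒪]
    (χ : T →+* 𝒪) :
    ∃ v : Fin d → 𝒪, v ≠ 0 ∧ ∀ t : T, (toO 𝒪 (τ t)).mulVec v = χ t • v := by
  classical
  let K := FractionRing 𝒪
  have hinj : Function.Injective (algebraMap 𝒪 K) := IsFractionRing.injective 𝒪 K
  haveI : CharZero K := charZero_of_injective_algebraMap hinj
  obtain ⟨v, hv0, hv⟩ := exists_eigen_field τ hτ ((algebraMap 𝒪 K).comp χ)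
  obtain ⟨b, hb⟩ := IsLocalization.exist_integer_multiples_of_finite (nonZeroDivisors 𝒪) v
  choose w hw using hb
  have hb0 : algebraMap 𝒪 K (b : 𝒪) ≠ 0 := by
    rw [Ne, map_eq_zero_iff _ hinj]
    exact nonZeroDivisors.coe_ne_zero b
  have hw' : ∀ i, algebraMap 𝒪 K (w i) = algebraMap 𝒪 K (b : 𝒪) * v i := fun i => by
    rw [hw i, Algebra.smul_def]
  refine ⟨w, fun h => hv0 ?_, fun t => ?_⟩
  · funext i
    have := hw' i
    rw [h, Pi.zero_apply, map_zero] at this
    exact (mul_eq_zero.1 this.symm).resolve_left hb0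
  · funext i
    apply hinj
    have h1 := congrFun (hv t) i
    simp only [Matrix.mulVec, dotProduct, Pi.smul_apply, smul_eq_mul, RingHom.comp_apply,
      Matrix.map_apply] at h1 ⊢
    rw [map_sum, map_mul, hw', mul_left_comm, ← h1, Finset.mul_sum]
    refine Finset.sum_congr rfl fun j _ => ?_
    rw [map_mul, hw']
    simp only [eq_intCast, map_intCast]
    ring

end Fermat.Agent.S30
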