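import Fermat.Agent.ES.Cheb
import Fermat.Agent.ES.EGlue
import Fermat.Agent.S31.Lucas

/-!
# S30-SCAL : `g + δ(g) g⁻¹` is a scalar on `W`

Weak Chebotarev + the Lucas sequence + a limit argument in a discrete valuation ring.
-/

set_option autoImplicit false

namespace Fermat.Agent.S30

open Fermat.Agent.ES Fermat.Agent.S24 IsLocalRing Fermat.Agent.S31.Lucas

namespace Scal

section Alg

variable {𝒪 : Type*} [CommRing 𝒪] {d : ℕ}

/-- entrywise congruence is preserved by left multiplication. -/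
theorem mul_entry_mem (I : Ideal 𝒪) (X Y : Matrix (Fin d) (Fin d) 𝒪) (hY : ∀ i j, Y i j ∈ I)
    (i j : Fin d) : (X * Y) i j ∈ I := by
  rw [Matrix.mul_apply]
  exact Ideal.sum_mem _ fun k _ => Ideal.mul_mem_left _ _ (hY k j)

/-- entrywise congruence is preserved by right multiplication. -/
theorem entry_mul_mem (I : Ideal 𝒪) (X Y : Matrix (Fin d) (Fin d) 𝒪) (hX : ∀ i j, X i j ∈ I)
    (i j : Fin d) : (X * Y) i j ∈ I := by
  rw [Matrix.mul_apply]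
  exact Ideal.sum_mem _ fun k _ => Ideal.mul_mem_right _ _ (hX i k)

theorem mulVec_entry_mem (I : Ideal 𝒪) (X : Matrix (Fin d) (Fin d) 𝒪) (hX : ∀ i j, X i j ∈ I)
    (v : Fin d → 𝒪) (i : Fin d) : (X.mulVec v) i ∈ I := by
  rw [Matrix.mulVec, dotProduct]
  exact Ideal.sum_mem _ fun k _ => Ideal.mul_mem_right _ _ (hX i k)

/-- the Lucas sequence on vectors. -/
theorem lucas_mulVec (x y : Matrix (Fin d) (Fin d) 𝒪) (hxy : x * y = 1) (hyx : y * x = 1)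
    (W : Submodule 𝒪 (Fin d → 𝒪)) (c l : 𝒪)
    (h : ∀ v ∈ W, x.mulVec v + l • y.mulVec v = c • v) (k : ℕ) :
    ∀ v ∈ W, (x ^ k).mulVec v + l ^ k • (y ^ k).mulVec v = lucasV c l k • v := by
  induction k using Nat.strong_induction_on with
  | _ k ih =>
    match k with
    | 0 =>
      intro v _
      simp only [pow_zero, Matrix.one_mulVec, one_smul, lucasV_zero]
      rw [two_smul]
    | 1 =>
      intro v hv
      simp only [pow_one, lucasV_one]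
      exact h v hv
    | (k + 2) =>
      intro v hv
      have h1 := ih (k + 1) (by omega) v hv
      have h0 := ih k (by omega) v hv
      -- the matrix identity
      have hM : x ^ (k + 2) + l ^ (k + 2) • y ^ (k + 2)
          = (x + l • y) * (x ^ (k + 1) + l ^ (k + 1) • y ^ (k + 1))
            - l • (x ^ k + l ^ k • y ^ k) := by
        have e1 : x * y ^ (k + 1) = y ^ k := by
          rw [pow_succ', ← mul_assoc, hxy, one_mul]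
        have e2 : y * x ^ (k + 1) = x ^ k := by
          rw [pow_succ', ← mul_assoc, hyx, one_mul]
        rw [add_mul, mul_add, mul_add, Matrix.mul_smul, Matrix.smul_mul, Matrix.smul_mul,
          Matrix.mul_smul, e1, e2, ← pow_succ' x, ← pow_succ' y, smul_smul, smul_add, smul_smul,
          ← pow_succ' l, ← pow_succ' l]
        abel
      have hL : (x ^ (k + 2)).mulVec v + l ^ (k + 2) • (y ^ (k + 2)).mulVec v
          = (x ^ (k + 2) + l ^ (k + 2) • y ^ (k + 2)).mulVec v := by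
        rw [Matrix.add_mulVec, Matrix.smul_mulVec]
      rw [hL, hM, Matrix.sub_mulVec, ← Matrix.mulVec_mulVec, Matrix.add_mulVec (x ^ (k + 1)),
        Matrix.smul_mulVec, h1, Matrix.smul_mulVec, Matrix.add_mulVec (x ^ k), Matrix.smul_mulVec,
        h0, Matrix.mulVec_smul, Matrix.add_mulVec, Matrix.smul_mulVec, h v hv,
        lucasV_succ_succ, sub_smul, smul_smul, smul_smul, mul_comm c]

end Alg

section DVR

variable {𝒪 : Type*} [CommRing 𝒪] [IsDomain 𝒪] [IsDiscreteValuationRing 𝒪] {d : ℕ}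

/-- a saturated nonzero submodule contains a vector with a unit coordinate. -/
theorem exists_unit_coord (W : Submodule 𝒪 (Fin d → 𝒪)) (hW0 : W ≠ ⊥)
    (hsat : ∀ (a : 𝒪) (v : Fin d → 𝒪), a ≠ 0 → a • v ∈ W → v ∈ W) :
    ∃ w ∈ W, ∃ i, IsUnit (w i) := by
  obtain ⟨w, hw, hw0⟩ := Submodule.exists_mem_ne_zero_of_ne_bot hW0
  set J : Ideal 𝒪 := Ideal.span (Set.range w) with hJ
  set a := Submodule.IsPrincipal.generator J with ha
  have hmem : ∀ i, w i ∈ J := fun i => Ideal.subset_span ⟨i, rfl⟩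
  have hdiv : ∀ i, ∃ b, w i = b • a := fun i =>
    (Submodule.IsPrincipal.mem_iff_eq_smul_generator J).1 (hmem i)
  choose w0 hw0' using hdiv
  have ha0 : a ≠ 0 := by
    intro h0
    apply hw0
    funext i
    rw [hw0' i, h0, smul_zero, Pi.zero_apply]
  have haJ : a ∈ J := Submodule.IsPrincipal.generator_mem J
  obtain ⟨b, hb⟩ := (Ideal.mem_span_range_iff_exists_fun).1 haJ
  have hsum : (∑ i, b i * w0 i) = 1 := by
    have : (∑ i, b i * w0 i) * a = 1 * a := by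
      rw [one_mul, Finset.sum_mul]
      conv_rhs => rw [← hb]
      refine Finset.sum_congr rfl fun i _ => ?_
      rw [hw0' i, smul_eq_mul, mul_assoc]
    exact mul_right_cancel₀ ha0 this
  have hw0W : w0 ∈ W := by
    apply hsat a w0 ha0
    have : a • w0 = w := by
      funext i
      rw [Pi.smul_apply, hw0' i, smul_eq_mul, smul_eq_mul, mul_comm]
    rw [this]
    exact hw
  refine ⟨w0, hw0W, ?_⟩
  by_contra hcon
  push Not at hcon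
  have : (1 : 𝒪) ∈ maximalIdeal 𝒪 := by
    rw [← hsum]
    exact Ideal.sum_mem _ fun i _ => Ideal.mul_mem_left _ _ ((mem_maximalIdeal _).2 (hcon i))
  exact (Ideal.ne_top_iff_one _).1 (maximalIdeal.isMaximal 𝒪).ne_top this

theorem eq_zero_of_forall_mem (x : 𝒪) (h : ∀ n : ℕ, x ∈ maximalIdeal 𝒪 ^ n) : x = 0 := by
  have h1 : x ∈ (⨅ n : ℕ, maximalIdeal 𝒪 ^ n : Ideal 𝒪) := by
    rw [Submodule.mem_iInf]
    exact h
  rw [Ideal.iInf_pow_eq_bot_of_isLocalRing _ (maximalIdeal.isMaximal 𝒪).ne_top] at h1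
  exact h1

end DVR

section Key

variable (𝒪 : Type) [CommRing 𝒪] [IsDomain 𝒪] [IsDiscreteValuationRing 𝒪] {d : ℕ}

/-- the key congruence : modulo `𝔪 ^ n` the operator `g + δ(g) g⁻¹` is a scalar on `W`. -/
theorem key (R : GQ →* Matrix (Fin d) (Fin d) 𝒪)
    (hR : ∀ n : ℕ, ∃ L : IntermediateField ℚ Kb, FiniteDimensional ℚ L ∧
        ∀ σ : GQ, (∀ x ∈ L, σ x = x) → ∀ i j, (R σ - 1) i j ∈ maximalIdeal 𝒪 ^ n)
    (δ : GQ →* 𝒪ˣ)
    (hδ : ∀ n : ℕ, ∃ L : IntermediateField ℚ Kb, FiniteDimensional ℚ L ∧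
        ∀ σ : GQ, (∀ x ∈ L, σ x = x) → ((δ σ : 𝒪ˣ) : 𝒪) - 1 ∈ maximalIdeal 𝒪 ^ n)
    (W : Submodule 𝒪 (Fin d → 𝒪))
    (hWR : ∀ g : GQ, ∀ v ∈ W, (R g).mulVec v ∈ W)
    (T₀ : Finset ℕ) (c : ℕ → 𝒪)
    (hF : ∀ ℓ : ℕ, ℓ.Prime → ℓ ∉ T₀ → ∀ A : ValuationSubring Kb, A.LiesOverPrime ℓ →
      ∀ σ : GQ, A.IsFrobeniusAt σ ℓ → ((δ σ : 𝒪ˣ) : 𝒪) = (ℓ : 𝒪) ∧
        ∀ v ∈ W, (R σ).mulVec ((R σ).mulVec v) - c ℓ • (R σ).mulVec v + (ℓ : 𝒪) • v = 0)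
    (g : GQ) (n : ℕ) :
    ∃ a : 𝒪, ∀ v ∈ W, ∀ i,
      ((R g).mulVec v + ((δ g : 𝒪ˣ) : 𝒪) • (R g⁻¹).mulVec v - a • v) i ∈ maximalIdeal 𝒪 ^ n := by
  obtain ⟨L₁, hL₁, h₁⟩ := hR n
  obtain ⟨L₂, hL₂, h₂⟩ := hδ n
  obtain ⟨E, hE, hEG, h1E, h2E⟩ := EGlue.exists_galois L₁ L₂ hL₁ hL₂
  obtain ⟨ℓ, A, σ, j, k, hℓ, hℓT, hA, hσ, -, hgk⟩ := Cheb.weak_chebotarev E T₀ g
  obtain ⟨hδσ, hrel⟩ := hF ℓ hℓ hℓT A hA σ hσ
  set h : GQ := (σ ^ k)⁻¹ * g with hh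
  have hfix : ∀ x ∈ E, h x = x := by
    intro x hx
    rw [hh, AlgEquiv.mul_apply, hgk x hx]
    exact (σ ^ k).symm_apply_apply x
  have hfix' : ∀ x ∈ E, h⁻¹ x = x := by
    intro x hx
    conv_lhs => rw [← hfix x hx]
    exact h.symm_apply_apply x
  have hg : g = σ ^ k * h := by rw [hh, mul_inv_cancel_left]
  have hginv : g⁻¹ = h⁻¹ * σ⁻¹ ^ k := by rw [hg, mul_inv_rev, inv_pow]
  set x := R σ with hx
  set y := R σ⁻¹ with hy
  have hxy : x * y = 1 := by rw [hx, hy, ← map_mul, mul_inv_cancel, map_one]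
  have hyx : y * x = 1 := by rw [hx, hy, ← map_mul, inv_mul_cancel, map_one]
  have hRg : R g = x ^ k * R h := by rw [hg, map_mul, map_pow]
  have hRginv : R g⁻¹ = R h⁻¹ * y ^ k := by rw [hginv, map_mul, map_pow]
  have hδg : ((δ g : 𝒪ˣ) : 𝒪) = (ℓ : 𝒪) ^ k * ((δ h : 𝒪ˣ) : 𝒪) := by
    rw [hg, map_mul, map_pow, Units.val_mul, Units.val_pow_eq_pow_val, hδσ]
  have hlin : ∀ v ∈ W, x.mulVec v + (ℓ : 𝒪) • y.mulVec v = c ℓ • v := by
    intro v hv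
    have h3 := hrel (y.mulVec v) (hWR σ⁻¹ v hv)
    have h5 : x.mulVec (y.mulVec v) = v := by
      rw [Matrix.mulVec_mulVec, hxy, Matrix.one_mulVec]
    rw [h5] at h3
    have h4 : x.mulVec v + (ℓ : 𝒪) • y.mulVec v
        = (x.mulVec v - c ℓ • v + (ℓ : 𝒪) • y.mulVec v) + c ℓ • v := by abel
    rw [h4, h3, zero_add]
  have hluc := lucas_mulVec x y hxy hyx W (c ℓ) (ℓ : 𝒪) hlin k
  refine ⟨lucasV (c ℓ) (ℓ : 𝒪) k, fun v hv i => ?_⟩
  set Z : Matrix (Fin d) (Fin d) 𝒪 := x ^ k * (R h - 1)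
      + ((δ g : 𝒪ˣ) : 𝒪) • ((R h⁻¹ - 1) * y ^ k)
      + ((ℓ : 𝒪) ^ k * (((δ h : 𝒪ˣ) : 𝒪) - 1)) • y ^ k with hZ
  have hZmem : ∀ i j, Z i j ∈ maximalIdeal 𝒪 ^ n := by
    intro i j
    rw [hZ, Matrix.add_apply, Matrix.add_apply, Matrix.smul_apply, Matrix.smul_apply]
    refine Ideal.add_mem _ (Ideal.add_mem _ ?_ ?_) ?_
    · exact mul_entry_mem _ _ _ (h₁ h fun x hx => hfix x (h1E hx)) i j
    · exact Ideal.mul_mem_left _ _
        (entry_mul_mem _ _ _ (h₁ h⁻¹ fun x hx => hfix' x (h1E hx)) i j)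
    · rw [smul_eq_mul]
      exact Ideal.mul_mem_right _ _
        (Ideal.mul_mem_left _ _ (h₂ h fun x hx => hfix x (h2E hx)))
  have hZeq : R g + ((δ g : 𝒪ˣ) : 𝒪) • R g⁻¹ = (x ^ k + (ℓ : 𝒪) ^ k • y ^ k) + Z := by
    rw [hZ, mul_sub, sub_mul, mul_one, one_mul, ← hRg, ← hRginv, smul_sub, mul_sub, mul_one,
      sub_smul, ← hδg]
    abel
  have hfin : (R g).mulVec v + ((δ g : 𝒪ˣ) : 𝒪) • (R g⁻¹).mulVec v
      - lucasV (c ℓ) (ℓ : 𝒪) k • v = Z.mulVec v := by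
    rw [← Matrix.smul_mulVec, ← Matrix.add_mulVec, hZeq, Matrix.add_mulVec, Matrix.add_mulVec,
      Matrix.smul_mulVec, hluc v hv]
    abel
  rw [hfin]
  exact mulVec_entry_mem _ Z hZmem v i

end Key

end Scal

open Scal in
theorem exists_trace (𝒪 : Type) [CommRing 𝒪] [IsDomain 𝒪] [IsDiscreteValuationRing 𝒪] {d : ℕ}
    (R : GQ →* Matrix (Fin d) (Fin d) 𝒪)
    (hR : ∀ n : ℕ, ∃ L : IntermediateField ℚ Kb, FiniteDimensional ℚ L ∧
        ∀ σ : GQ, (∀ x ∈ L, σ x = x) → ∀ i j, (R σ - 1) i j ∈ maximalIdeal 𝒪 ^ n)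
    (δ : GQ →* 𝒪ˣ)
    (hδ : ∀ n : ℕ, ∃ L : IntermediateField ℚ Kb, FiniteDimensional ℚ L ∧
        ∀ σ : GQ, (∀ x ∈ L, σ x = x) → ((δ σ : 𝒪ˣ) : 𝒪) - 1 ∈ maximalIdeal 𝒪 ^ n)
    (W : Submodule 𝒪 (Fin d → 𝒪)) (hW0 : W ≠ ⊥)
    (hsat : ∀ (a : 𝒪) (v : Fin d → 𝒪), a ≠ 0 → a • v ∈ W → v ∈ W)
    (hWR : ∀ g : GQ, ∀ v ∈ W, (R g).mulVec v ∈ W)
    (T₀ : Finset ℕ) (c : ℕ → 𝒪)
    (hF : ∀ ℓ : ℕ, ℓ.Prime → ℓ ∉ T₀ → ∀ A : ValuationSubring Kb, A.LiesOverPrime ℓ →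
      ∀ σ : GQ, A.IsFrobeniusAt σ ℓ → ((δ σ : 𝒪ˣ) : 𝒪) = (ℓ : 𝒪) ∧
        ∀ v ∈ W, (R σ).mulVec ((R σ).mulVec v) - c ℓ • (R σ).mulVec v + (ℓ : 𝒪) • v = 0) :
    ∃ tr : GQ → 𝒪,
      (∀ g : GQ, ∀ v ∈ W,
        (R g).mulVec ((R g).mulVec v) - tr g • (R g).mulVec v + ((δ g : 𝒪ˣ) : 𝒪) • v = 0) ∧
      ∀ ℓ : ℕ, ℓ.Prime → ℓ ∉ T₀ → ∀ A : ValuationSubring Kb, A.LiesOverPrime ℓ →
        ∀ σ : GQ, A.IsFrobeniusAt σ ℓ → tr σ = c ℓ := by
  obtain ⟨w, hw, i₀, hi₀⟩ := exists_unit_coord W hW0 hsat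
  obtain ⟨u, hu⟩ := hi₀
  -- the operator `B g`
  set B : GQ → (Fin d → 𝒪) → (Fin d → 𝒪) := fun g v =>
    (R g).mulVec v + ((δ g : 𝒪ˣ) : 𝒪) • (R g⁻¹).mulVec v with hB
  set tr : GQ → 𝒪 := fun g => B g w i₀ * ((u⁻¹ : 𝒪ˣ) : 𝒪) with htr
  have hscal : ∀ g : GQ, ∀ v ∈ W, B g v = tr g • v := by
    intro g v hv
    funext i
    rw [← sub_eq_zero]
    refine eq_zero_of_forall_mem _ fun n => ?_
    obtain ⟨a, ha⟩ := key 𝒪 R hR δ hδ W hWR T₀ c hF g n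
    have h1 : B g w i₀ - a * w i₀ ∈ maximalIdeal 𝒪 ^ n := by
      have := ha w hw i₀
      rwa [Pi.sub_apply, Pi.smul_apply, smul_eq_mul] at this
    have h2 : tr g - a ∈ maximalIdeal 𝒪 ^ n := by
      have h3 : tr g - a = (B g w i₀ - a * w i₀) * ((u⁻¹ : 𝒪ˣ) : 𝒪) := by
        rw [htr, sub_mul, ← hu, mul_assoc a, Units.mul_inv, mul_one]
      rw [h3]
      exact Ideal.mul_mem_right _ _ h1
    have h4 : B g v i - (tr g • v) i = (B g v - a • v) i - (tr g - a) * v i := by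
      rw [Pi.sub_apply, Pi.smul_apply, Pi.smul_apply, smul_eq_mul, smul_eq_mul]
      ring
    rw [h4]
    exact Ideal.sub_mem _ (ha v hv i) (Ideal.mul_mem_right _ _ h2)
  have hrel : ∀ g : GQ, ∀ v ∈ W,
      (R g).mulVec ((R g).mulVec v) - tr g • (R g).mulVec v + ((δ g : 𝒪ˣ) : 𝒪) • v = 0 := by
    intro g v hv
    have h1 := hscal g _ (hWR g v hv)
    have h2 : B g ((R g).mulVec v) = (R g).mulVec ((R g).mulVec v) + ((δ g : 𝒪ˣ) : 𝒪) • v := by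
      rw [hB]
      show (R g).mulVec ((R g).mulVec v) + ((δ g : 𝒪ˣ) : 𝒪) • (R g⁻¹).mulVec ((R g).mulVec v) = _
      rw [Matrix.mulVec_mulVec (v := v) (M := R g⁻¹), ← map_mul, inv_mul_cancel, map_one,
        Matrix.one_mulVec]
    rw [h2] at h1
    rw [← h1]
    abel
  refine ⟨tr, hrel, fun ℓ hℓ hℓT A hA σ hσ => ?_⟩
  obtain ⟨hδσ, hrelσ⟩ := hF ℓ hℓ hℓT A hA σ hσ
  have hv := hWR σ⁻¹ w hw
  have e1 := hrel σ _ hv
  have e2 := hrelσ _ hv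
  have e3 : (R σ).mulVec ((R σ⁻¹).mulVec w) = w := by
    rw [Matrix.mulVec_mulVec, ← map_mul, mul_inv_cancel, map_one, Matrix.one_mulVec]
  rw [e3, hδσ] at e1
  rw [e3] at e2
  have e4 : (tr σ - c ℓ) • w = 0 := by
    rw [sub_smul]
    have := congrArg₂ (· - ·) e2 e1
    simp only [sub_zero] at this
    rw [← this]
    abel
  have e5 := congrFun e4 i₀
  rw [Pi.smul_apply, Pi.zero_apply, smul_eq_mul, ← hu] at e5
  exact sub_eq_zero.1 (u.mul_left_eq_zero.1 e5)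

end Fermat.Agent.S30
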