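import Fermat.Agent.S30.Tate
import Fermat.Agent.S30.Eig
import Fermat.Agent.S30.Scal
import Fermat.Agent.S30.CC
import Fermat.Agent.S30.Cyc

/-!
# S30 : assembly of the algebra part

From `FinData p N S` (the Galois action on `L / p ^ r L` in coordinates) and a point
`χ : 𝕋 → 𝒪'` we construct the attached representation over `𝒪'` itself.
-/

set_option autoImplicit false
set_option linter.overlappingInstances false

namespace Fermat.Agent.S30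

open Fermat.Agent.ES Fermat.Agent.S24 CuspForm Polynomial IsLocalRing

namespace Main

/-- the action of `G` on a stable submodule of `𝒪 ^ d`. -/
noncomputable def resW {G : Type*} [Group G] {𝒪 : Type*} [CommRing 𝒪] {d : ℕ}
    (R : G →* Matrix (Fin d) (Fin d) 𝒪) (W : Submodule 𝒪 (Fin d → 𝒪))
    (hWR : ∀ g : G, ∀ v ∈ W, (R g).mulVec v ∈ W) : G →* Module.End 𝒪 W where
  toFun g := (Matrix.mulVecLin (R g)).restrict (hWR g)
  map_one' := by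
    ext v
    simp
  map_mul' g h := by
    ext v
    simp [Matrix.mulVec_mulVec]

@[simp] lemma coe_resW {G : Type*} [Group G] {𝒪 : Type*} [CommRing 𝒪] {d : ℕ}
    (R : G →* Matrix (Fin d) (Fin d) 𝒪) (W : Submodule 𝒪 (Fin d → 𝒪))
    (hWR : ∀ g : G, ∀ v ∈ W, (R g).mulVec v ∈ W) (g : G) (v : W) :
    (resW R W hWR g v : Fin d → 𝒪) = (R g).mulVec v.1 := rfl

lemma resW_cong {G : Type*} [Group G] {𝒪 : Type*} [CommRing 𝒪] [IsDomain 𝒪]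
    [IsDiscreteValuationRing 𝒪] {d : ℕ}
    (R : G →* Matrix (Fin d) (Fin d) 𝒪) (W : Submodule 𝒪 (Fin d → 𝒪))
    (hWR : ∀ g : G, ∀ v ∈ W, (R g).mulVec v ∈ W)
    (hsat : ∀ (a : 𝒪) (v : Fin d → 𝒪), a ≠ 0 → a • v ∈ W → v ∈ W) (n : ℕ) (g : G)
    (h : ∀ i j, (R g - 1) i j ∈ maximalIdeal 𝒪 ^ n) (v : W) :
    resW R W hWR g v - v ∈ (maximalIdeal 𝒪 ^ n) • (⊤ : Submodule 𝒪 W) := by
  obtain ⟨ϖ, hϖ⟩ := IsDiscreteValuationRing.exists_irreducible 𝒪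
  have h1 : ∀ i, ∃ a, a * ϖ ^ n = ((R g - 1).mulVec v.1) i := fun i => by
    have : ((R g - 1).mulVec v.1) i ∈ maximalIdeal 𝒪 ^ n := by
      rw [Matrix.mulVec, dotProduct]
      exact Ideal.sum_mem _ fun j _ => Ideal.mul_mem_right _ _ (h i j)
    rw [hϖ.maximalIdeal_eq, Ideal.span_singleton_pow] at this
    exact Ideal.mem_span_singleton'.mp this
  choose w hw using h1
  have hw' : (R g).mulVec v.1 - v.1 = ϖ ^ n • w := by
    ext i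
    rw [Pi.smul_apply, smul_eq_mul, mul_comm, hw, Matrix.sub_mulVec, Matrix.one_mulVec]
  have hwW : w ∈ W := hsat (ϖ ^ n) w (pow_ne_zero n hϖ.ne_zero) (by
    rw [← hw']
    exact W.sub_mem (hWR g _ v.2) v.2)
  have e : resW R W hWR g v - v = ϖ ^ n • (⟨w, hwW⟩ : W) := Subtype.ext hw'
  rw [e]
  refine Submodule.smul_mem_smul (Ideal.pow_mem_pow ?_ n) Submodule.mem_top
  rw [hϖ.maximalIdeal_eq]
  exact Ideal.mem_span_singleton_self ϖ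

lemma unram_aux {𝒪 Λ V : Type*} [CommRing 𝒪] [AddCommGroup Λ] [Module 𝒪 Λ] [AddCommGroup V]
    [Module 𝒪 V] (f : Module.End 𝒪 Λ) (d : 𝒪) (τ : Module.End 𝒪 V)
    (h : ∀ I : Ideal 𝒪, (∀ x, f x - x ∈ I • (⊤ : Submodule 𝒪 Λ)) → d - 1 ∈ I →
      ∀ v, τ v - v ∈ I • (⊤ : Submodule 𝒪 V))
    (hf : ∀ x, f x = x) (hd : d = 1) : τ = 1 := by
  refine LinearMap.ext fun v => ?_
  have := h ⊥ (fun x => by rw [hf x, sub_self]; exact Submodule.zero_mem _)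
    (by rw [hd, sub_self]; exact Submodule.zero_mem _) v
  rw [Submodule.bot_smul, Submodule.mem_bot, sub_eq_zero] at this
  exact this

end Main

open Main in
/-- **S30 from the finite level data.** -/
theorem main_of (p : ℕ) [Fact p.Prime] (N : ℕ) [NeZero N] (S : Finset ℕ)
    (hpS : p ∈ S) (hNS : ∀ q : ℕ, q.Prime → q ∣ N → q ∈ S) (D : FinData p N (↑S : Set ℕ))
    (𝒪' : Type) [CommRing 𝒪'] [IsDomain 𝒪'] [IsDiscreteValuationRing 𝒪']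
    [IsAdicComplete (IsLocalRing.maximalIdeal 𝒪') 𝒪'] [Finite (IsLocalRing.ResidueField 𝒪')]
    [CharZero 𝒪'] (hp : (p : 𝒪') ∈ IsLocalRing.maximalIdeal 𝒪')
    (χ : CuspForm.heckeAlgebra N 2 (↑S : Set ℕ) →+* 𝒪') :
    ∃ (𝒪'' : Type) (_ : CommRing 𝒪'') (_ : IsDomain 𝒪'') (_ : IsDiscreteValuationRing 𝒪'')
      (_ : IsAdicComplete (IsLocalRing.maximalIdeal 𝒪'') 𝒪'')
      (_ : Finite (IsLocalRing.ResidueField 𝒪'')) (_ : CharZero 𝒪'')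
      (_ : Algebra 𝒪' 𝒪'') (_ : Module.Finite 𝒪' 𝒪'') (_ : IsLocalHom (algebraMap 𝒪' 𝒪'')),
    Function.Injective (algebraMap 𝒪' 𝒪'') ∧
    ∃ ρ : GaloisRepAdic 𝒪'',
      (∀ (ℓ : ℕ) (hℓ : ℓ.Prime) (hℓN : ¬ ℓ ∣ N) (hℓS : ℓ ∉ (↑S : Set ℕ)),
        ∀ A : ValuationSubring (AlgebraicClosure ℚ), A.LiesOverPrime ℓ →
          ∀ σ : AlgebraicClosure ℚ ≃ₐ[ℚ] AlgebraicClosure ℚ, A.IsFrobeniusAt σ ℓ →
            LinearMap.charpoly (ρ.ρ σ) =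
              X ^ 2 - C (algebraMap 𝒪' 𝒪'' (χ (CuspForm.heckeAlgebra.T hℓ hℓN hℓS))) * X
                + C ((ℓ : 𝒪''))) ∧
      (∀ q : ℕ, q.Prime → ¬ q ∣ N → q ≠ p → ρ.IsUnramifiedAt q) := by
  obtain ⟨R, hcomm, hcont, hes, hinert⟩ := exists_tate D 𝒪' hp
  obtain ⟨δ, -, hδcont', hδ, cc, hcc, hδc⟩ := exists_adicCyc p 𝒪' hp
  have hδcont : ∀ n : ℕ, ∃ L : IntermediateField ℚ Kb, FiniteDimensional ℚ L ∧
      ∀ σ : GQ, (∀ x ∈ L, σ x = x) → ((δ σ : 𝒪'ˣ) : 𝒪') - 1 ∈ maximalIdeal 𝒪' ^ n := by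
    intro n
    obtain ⟨L, hL, h⟩ := hδcont' n
    refine ⟨L, hL, fun σ hσ => ?_⟩
    have hle : Ideal.span {((p ^ n : ℕ) : 𝒪')} ≤ maximalIdeal 𝒪' ^ n := by
      rw [Ideal.span_singleton_le_iff_mem]
      push_cast
      exact Ideal.pow_mem_pow hp n
    exact hle (h σ hσ)
  obtain ⟨v₀, hv₀, hv₀e⟩ := exists_eigen D.τ D.τ_inj χ
  -- the eigenlattice
  let W : Submodule 𝒪' (Fin D.d → 𝒪') :=
    { carrier := {v | ∀ t, (toO 𝒪' (D.τ t)).mulVec v = χ t • v}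
      zero_mem' := fun t => by simp
      add_mem' := fun {a b} ha hb t => by
        rw [Matrix.mulVec_add, ha t, hb t, smul_add]
      smul_mem' := fun a v hv t => by
        rw [Matrix.mulVec_smul, hv t, smul_comm] }
  have hW0 : W ≠ ⊥ := fun h => hv₀ ((Submodule.eq_bot_iff W).mp h v₀ hv₀e)
  have hsat : ∀ (a : 𝒪') (v : Fin D.d → 𝒪'), a ≠ 0 → a • v ∈ W → v ∈ W := by
    intro a v ha hv t
    have := hv t
    rw [Matrix.mulVec_smul, smul_comm] at this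
    exact smul_right_injective _ ha this
  have hWR : ∀ g : GQ, ∀ v ∈ W, (R g).mulVec v ∈ W := by
    intro g v hv t
    rw [Matrix.mulVec_mulVec, ← hcomm g t, ← Matrix.mulVec_mulVec, hv t, Matrix.mulVec_smul]
  classical
  let c : ℕ → 𝒪' := fun ℓ =>
    if h : ℓ.Prime ∧ ¬ ℓ ∣ N ∧ ℓ ∉ (↑S : Set ℕ) then χ (heckeAlgebra.T h.1 h.2.1 h.2.2) else 0
  have hne : ∀ ℓ : ℕ, ℓ ∉ S → ℓ ≠ p := fun ℓ hℓ h => hℓ (h ▸ hpS)
  have hF : ∀ ℓ : ℕ, ℓ.Prime → ℓ ∉ S → ∀ A : ValuationSubring Kb, A.LiesOverPrime ℓ →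
      ∀ σ : GQ, A.IsFrobeniusAt σ ℓ → ((δ σ : 𝒪'ˣ) : 𝒪') = (ℓ : 𝒪') ∧
        ∀ v ∈ W, (R σ).mulVec ((R σ).mulVec v) - c ℓ • (R σ).mulVec v + (ℓ : 𝒪') • v = 0 := by
    intro ℓ hℓ hℓS A hA σ hσ
    have hℓN : ¬ ℓ ∣ N := fun h => hℓS (hNS ℓ hℓ h)
    have hℓS' : ℓ ∉ (↑S : Set ℕ) := hℓS
    refine ⟨((hδ ℓ hℓ (hne ℓ hℓS) A hA).2 σ hσ), fun v hv => ?_⟩
    have h1 := hes ℓ hℓ hℓN hℓS' (hne ℓ hℓS) A hA σ hσ
    have h2 := congrArg (fun M => M.mulVec v) h1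
    simp only [Matrix.add_mulVec, Matrix.sub_mulVec, Matrix.zero_mulVec] at h2
    have hc : c ℓ = χ (heckeAlgebra.T hℓ hℓN hℓS') := dif_pos ⟨hℓ, hℓN, hℓS'⟩
    rw [← Matrix.mulVec_mulVec, ← Matrix.mulVec_mulVec, hWR σ v hv _] at h2
    rw [hc]
    have h3 : (ℓ : Matrix (Fin D.d) (Fin D.d) 𝒪').mulVec v = (ℓ : 𝒪') • v := by
      rw [← Matrix.diagonal_natCast]
      ext i
      simp [Matrix.mulVec_diagonal]
    rw [h3] at h2
    exact h2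
  obtain ⟨tr, htr, htrF⟩ := exists_trace 𝒪' R hcont δ hδcont W hW0 hsat hWR S c hF
  have hnt : Nontrivial W := (Submodule.nontrivial_iff_ne_bot).mpr hW0
  obtain ⟨V, i1, i2, i3, i4, ρ, hrk, hchar, hcong⟩ := CC.exists_rep (𝒪 := 𝒪')
    (by exact_mod_cast (two_ne_zero : ((2 : ℕ) : 𝒪') ≠ 0)) (resW R W hWR) δ tr
    (fun g => LinearMap.ext fun v => Subtype.ext (htr g v.1 v.2)) hcc (Units.ext hδc)
  refine ⟨𝒪', inferInstance, inferInstance, inferInstance, inferInstance, inferInstance,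
    inferInstance, Algebra.id 𝒪', inferInstance, ⟨fun a ha => ha⟩, fun a b h => h, ?_⟩
  refine ⟨{ V := V, finrank_eq := hrk, ρ := ρ, isAdicContinuous := ?_ }, ?_, ?_⟩
  · intro n
    obtain ⟨L₁, hL₁, h₁⟩ := hcont n
    obtain ⟨L₂, hL₂, h₂⟩ := hδcont n
    refine ⟨L₁ ⊔ L₂, IntermediateField.finiteDimensional_sup L₁ L₂, fun σ hσ v => ?_⟩
    exact hcong σ _ (resW_cong R W hWR hsat n σ
      (h₁ σ fun x hx => hσ x ((le_sup_left : L₁ ≤ L₁ ⊔ L₂) hx)))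
      (h₂ σ fun x hx => hσ x ((le_sup_right : L₂ ≤ L₁ ⊔ L₂) hx)) v
  · intro ℓ hℓ hℓN hℓS A hA σ hσ
    have hℓS' : ℓ ∉ S := hℓS
    show (ρ σ).charpoly = _
    rw [hchar σ, htrF ℓ hℓ hℓS' A hA σ hσ, (hδ ℓ hℓ (hne ℓ hℓS') A hA).2 σ hσ]
    have hc : c ℓ = χ (heckeAlgebra.T hℓ hℓN hℓS) := dif_pos ⟨hℓ, hℓN, hℓS⟩
    rw [hc]
    rfl
  · intro q hq hqN hqp P hP σ hσ
    have hR1 : R σ = 1 := hinert q hq hqN hqp P hP σ hσ
    have hδ1 : δ σ = 1 := (hδ q hq hqp P hP).1 σ hσ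
    exact unram_aux _ _ _ (hcong σ) (fun x => Subtype.ext (by simp [hR1])) (by rw [hδ1]; rfl)

end Fermat.Agent.S30
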