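import Mathlib

/-!
# S30 : basic definitions (Mathlib only)

* `zq I p hp r : ZMod (p ^ r) →+* 𝒪 ⧸ I ^ r` for `(p : 𝒪) ∈ I`,
* `toO 𝒪 X` : an integer matrix seen over `𝒪`.
-/

set_option autoImplicit false

namespace Fermat.Agent.S30

variable {𝒪 : Type*} [CommRing 𝒪]

/-- the ring homomorphism `ℤ / p ^ r → 𝒪 / I ^ r` when `p ∈ I`. -/
noncomputable def zq (I : Ideal 𝒪) (p : ℕ) (hp : (p : 𝒪) ∈ I) (r : ℕ) :
    ZMod (p ^ r) →+* 𝒪 ⧸ I ^ r :=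
  (Ideal.Quotient.lift (Ideal.span {((p ^ r : ℕ) : ℤ)}) (Int.castRingHom (𝒪 ⧸ I ^ r)) (by
    intro a ha
    obtain ⟨b, rfl⟩ := Ideal.mem_span_singleton'.mp ha
    have h0 : (Ideal.Quotient.mk (I ^ r)) ((p : 𝒪) ^ r) = 0 :=
      Ideal.Quotient.eq_zero_iff_mem.mpr (Ideal.pow_mem_pow hp r)
    have h1 : (((p ^ r : ℕ) : ℤ) : 𝒪 ⧸ I ^ r) = 0 := by
      rw [← h0]
      push_cast
      simp
    rw [map_mul, eq_intCast (Int.castRingHom (𝒪 ⧸ I ^ r)) ((p ^ r : ℕ) : ℤ), h1, mul_zero])).comp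
    (Int.quotientSpanNatEquivZMod (p ^ r)).symm.toRingHom

/-- an integer matrix seen over `𝒪`. -/
abbrev toO (𝒪 : Type*) [CommRing 𝒪] {ι : Type*} (X : Matrix ι ι ℤ) : Matrix ι ι 𝒪 :=
  X.map (Int.castRingHom 𝒪)

end Fermat.Agent.S30
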