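import Fermat.Agent.S30.Base
import Fermat.Agent.ES.KDefs
import Fermat.Prelude.Def_CuspForm_HeckeGaloisRepDatum

/-!
# S30 : the interface between the modular part and the algebra part

`FinData p N S` : the Galois action on `L / p ^ r L` (`L` the period lattice of rank `d`), in
coordinates, for all `r`, together with the action of the Hecke algebra on `L`.
-/

set_option autoImplicit false

namespace Fermat.Agent.S30

open Fermat.Agent.ES Fermat.Agent.S24 CuspForm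

/-- The finite level data. -/
structure FinData (p N : ℕ) [NeZero N] (S : Set ℕ) where
  /-- the rank of the lattice -/
  d : ℕ
  /-- the action of the Hecke algebra on the lattice -/
  τ : heckeAlgebra N 2 S →+* Matrix (Fin d) (Fin d) ℤ
  τ_inj : Function.Injective τ
  /-- the Galois action on `L / p ^ r L` -/
  α : ∀ r : ℕ, GQ →* Matrix (Fin d) (Fin d) (ZMod (p ^ r))
  compat : ∀ (r : ℕ) (g : GQ),
    (α (r + 1) g).map (ZMod.castHom (pow_dvd_pow p r.le_succ) (ZMod (p ^ r))) = α r g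
  comm : ∀ (r : ℕ) (g : GQ) (t : heckeAlgebra N 2 S),
    α r g * toO (ZMod (p ^ r)) (τ t) = toO (ZMod (p ^ r)) (τ t) * α r g
  smooth : ∀ r : ℕ, ∃ L : IntermediateField ℚ Kb, FiniteDimensional ℚ L ∧
    ∀ σ : GQ, (∀ x ∈ L, σ x = x) → α r σ = 1
  es : ∀ (r ℓ : ℕ) (hℓ : ℓ.Prime) (hℓN : ¬ ℓ ∣ N) (hℓS : ℓ ∉ S), ℓ ≠ p →
    ∀ A : ValuationSubring Kb, A.LiesOverPrime ℓ → ∀ σ : GQ, A.IsFrobeniusAt σ ℓ →
      α r σ * α r σ - toO (ZMod (p ^ r)) (τ (heckeAlgebra.T hℓ hℓN hℓS)) * α r σ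
        + (ℓ : Matrix (Fin d) (Fin d) (ZMod (p ^ r))) = 0
  inert : ∀ (r q : ℕ), q.Prime → ¬ q ∣ N → q ≠ p →
    ∀ A : ValuationSubring Kb, A.LiesOverPrime q → ∀ σ ∈ A.inertiaSubgroupIn ℚ, α r σ = 1

end Fermat.Agent.S30
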