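import Fermat.Agent.S30.Base

/-!
# S30-LIM : the limit of a compatible family `G →* M_d(ℤ / p ^ r)` in `M_d(𝒪)`
-/

set_option autoImplicit false

namespace Fermat.Agent.S30

namespace Lim

variable {𝒪 : Type*} [CommRing 𝒪]

lemma smodEq_iff (I : Ideal 𝒪) (n : ℕ) (x y : 𝒪) :
    x ≡ y [SMOD (I ^ n • ⊤ : Submodule 𝒪 𝒪)] ↔ x - y ∈ I ^ n := by
  rw [SModEq.sub_mem, smul_eq_mul, Ideal.mul_top]

lemma eq_of_forall_sub_mem (I : Ideal 𝒪) [IsHausdorff I 𝒪] {x y : 𝒪}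
    (h : ∀ n : ℕ, x - y ∈ I ^ n) : x = y := by
  rw [← sub_eq_zero]
  refine IsHausdorff.haus' (I := I) _ fun n => ?_
  rw [smodEq_iff, sub_zero]
  exact h n

lemma intCast_sub_mem (I : Ideal 𝒪) (p : ℕ) (hp : (p : 𝒪) ∈ I) (r : ℕ) {a b : ℤ}
    (h : (a : ZMod (p ^ r)) = (b : ZMod (p ^ r))) : (a : 𝒪) - (b : 𝒪) ∈ I ^ r := by
  rw [ZMod.intCast_eq_intCast_iff_dvd_sub] at h
  obtain ⟨c, hc⟩ := h
  have e : (a : 𝒪) - (b : 𝒪) = -((p : 𝒪) ^ r * (c : 𝒪)) := by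
    have := congrArg (Int.cast : ℤ → 𝒪) hc
    push_cast at this
    rw [← this]
    ring
  rw [e]
  exact neg_mem (Ideal.mul_mem_right _ _ (Ideal.pow_mem_pow hp r))

/-- the limit of a compatible sequence -/
lemma exists_lim (I : Ideal 𝒪) [IsAdicComplete I 𝒪] (p : ℕ) (hp : (p : 𝒪) ∈ I)
    (a : ∀ r : ℕ, ZMod (p ^ r))
    (ha : ∀ r : ℕ, ZMod.castHom (pow_dvd_pow p r.le_succ) (ZMod (p ^ r)) (a (r + 1)) = a r) :
    ∃ L : 𝒪, ∀ r : ℕ, Ideal.Quotient.mk (I ^ r) L = zq I p hp r (a r) := by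
  choose z hz using fun r => ZMod.intCast_surjective (a r)
  have hstep : ∀ r : ℕ, ((z r : ℤ) : 𝒪) - ((z (r + 1) : ℤ) : 𝒪) ∈ I ^ r := by
    intro r
    apply intCast_sub_mem I p hp r
    rw [hz r, ← ha r, ← hz (r + 1), map_intCast]
  have hmn : ∀ m k : ℕ, ((z m : ℤ) : 𝒪) - ((z (m + k) : ℤ) : 𝒪) ∈ I ^ m := by
    intro m k
    induction k with
    | zero => simp
    | succ k ih =>
      have h1 := Ideal.pow_le_pow_right (I := I) (Nat.le_add_right m k) (hstep (m + k))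
      have := add_mem ih h1
      rwa [sub_add_sub_cancel] at this
  obtain ⟨L, hL⟩ := IsPrecomplete.prec' (I := I) (fun r => ((z r : ℤ) : 𝒪)) (by
    intro m n hmn'
    obtain ⟨k, rfl⟩ := Nat.exists_eq_add_of_le hmn'
    rw [smodEq_iff]
    exact hmn m k)
  refine ⟨L, fun r => ?_⟩
  have h1 := (smodEq_iff I r _ _).1 (hL r)
  rw [← hz r, map_intCast, ← map_intCast (Ideal.Quotient.mk (I ^ r)), eq_comm,
    Ideal.Quotient.eq]
  exact h1

end Lim

open Lim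

theorem eq_of_forall_map_mk {𝒪 : Type*} [CommRing 𝒪] (I : Ideal 𝒪) [IsHausdorff I 𝒪]
    {ι κ : Type*} (X Y : Matrix ι κ 𝒪)
    (h : ∀ r : ℕ, X.map (Ideal.Quotient.mk (I ^ r)) = Y.map (Ideal.Quotient.mk (I ^ r))) :
    X = Y := by
  ext i j
  refine eq_of_forall_sub_mem I fun n => ?_
  have := congrFun (congrFun (h n) i) j
  rw [Matrix.map_apply, Matrix.map_apply, Ideal.Quotient.eq] at this
  exact this

theorem exists_limit {𝒪 : Type*} [CommRing 𝒪] (I : Ideal 𝒪) [IsAdicComplete I 𝒪] (p : ℕ)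
    (hp : (p : 𝒪) ∈ I) {G : Type*} [Monoid G] {ι : Type*} [Fintype ι] [DecidableEq ι]
    (α : ∀ r : ℕ, G →* Matrix ι ι (ZMod (p ^ r)))
    (hα : ∀ (r : ℕ) (g : G),
      (α (r + 1) g).map (ZMod.castHom (pow_dvd_pow p r.le_succ) (ZMod (p ^ r))) = α r g) :
    ∃ R : G →* Matrix ι ι 𝒪, ∀ (r : ℕ) (g : G),
      (R g).map (Ideal.Quotient.mk (I ^ r)) = (α r g).map (zq I p hp r) := by
  choose L hL using fun (g : G) (i j : ι) => exists_lim I p hp (fun r => α r g i j) (fun r => by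
    have := congrFun (congrFun (hα r g) i) j
    rwa [Matrix.map_apply] at this)
  have hspec : ∀ (r : ℕ) (g : G), (Matrix.of (L g)).map (Ideal.Quotient.mk (I ^ r))
      = (α r g).map (zq I p hp r) := by
    intro r g
    ext i j
    rw [Matrix.map_apply, Matrix.map_apply, Matrix.of_apply, hL]
  refine ⟨{ toFun := fun g => Matrix.of (L g), map_one' := ?_, map_mul' := ?_ }, hspec⟩
  · refine eq_of_forall_map_mk I _ _ fun r => ?_
    rw [hspec, map_one]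
    exact (map_one (zq I p hp r).mapMatrix).trans (map_one (Ideal.Quotient.mk (I ^ r)).mapMatrix).symm
  · intro g h
    refine eq_of_forall_map_mk I _ _ fun r => ?_
    rw [hspec, map_mul]
    refine (map_mul (zq I p hp r).mapMatrix _ _).trans ?_
    refine Eq.trans ?_ (map_mul (Ideal.Quotient.mk (I ^ r)).mapMatrix _ _).symm
    rw [RingHom.mapMatrix_apply, RingHom.mapMatrix_apply, RingHom.mapMatrix_apply,
      RingHom.mapMatrix_apply, hspec, hspec]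

end Fermat.Agent.S30
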