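import Fermat.Agent.S30.Lim
import Fermat.Agent.S30.Defs

/-!
# S30-TATE : the `p`-adic representation `R : G_ℚ →* M_d(𝒪)` attached to a `FinData`
-/

set_option autoImplicit false

namespace Fermat.Agent.S30

open Fermat.Agent.ES Fermat.Agent.S24 CuspForm IsLocalRing

namespace Tate

variable {𝒪 : Type*} [CommRing 𝒪]

lemma mapMatrix_toO (I : Ideal 𝒪) (p : ℕ) (hp : (p : 𝒪) ∈ I) (r : ℕ) {ι : Type*} [Fintype ι]
    [DecidableEq ι] (X : Matrix ι ι ℤ) :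
    (Ideal.Quotient.mk (I ^ r)).mapMatrix (toO 𝒪 X)
      = (zq I p hp r).mapMatrix (toO (ZMod (p ^ r)) X) := by
  ext i j
  simp only [RingHom.mapMatrix_apply, Matrix.map_apply, eq_intCast, map_intCast]

end Tate

open Tate

theorem exists_tate {p N : ℕ} [NeZero N] {S : Set ℕ} (D : FinData p N S)
    (𝒪 : Type) [CommRing 𝒪] [IsLocalRing 𝒪] [IsAdicComplete (maximalIdeal 𝒪) 𝒪]
    (hp : (p : 𝒪) ∈ maximalIdeal 𝒪) :
    ∃ R : GQ →* Matrix (Fin D.d) (Fin D.d) 𝒪,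
      (∀ (g : GQ) (t : heckeAlgebra N 2 S), R g * toO 𝒪 (D.τ t) = toO 𝒪 (D.τ t) * R g) ∧
      (∀ n : ℕ, ∃ L : IntermediateField ℚ Kb, FiniteDimensional ℚ L ∧
        ∀ σ : GQ, (∀ x ∈ L, σ x = x) → ∀ i j, (R σ - 1) i j ∈ maximalIdeal 𝒪 ^ n) ∧
      (∀ (ℓ : ℕ) (hℓ : ℓ.Prime) (hℓN : ¬ ℓ ∣ N) (hℓS : ℓ ∉ S), ℓ ≠ p →
        ∀ A : ValuationSubring Kb, A.LiesOverPrime ℓ → ∀ σ : GQ, A.IsFrobeniusAt σ ℓ →
          R σ * R σ - toO 𝒪 (D.τ (heckeAlgebra.T hℓ hℓN hℓS)) * R σ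
            + (ℓ : Matrix (Fin D.d) (Fin D.d) 𝒪) = 0) ∧
      (∀ q : ℕ, q.Prime → ¬ q ∣ N → q ≠ p →
        ∀ A : ValuationSubring Kb, A.LiesOverPrime q → ∀ σ ∈ A.inertiaSubgroupIn ℚ, R σ = 1) := by
  obtain ⟨R, hR⟩ := exists_limit (maximalIdeal 𝒪) p hp D.α D.compat
  have hR' : ∀ (r : ℕ) (g : GQ), (Ideal.Quotient.mk (maximalIdeal 𝒪 ^ r)).mapMatrix (R g)
      = (zq (maximalIdeal 𝒪) p hp r).mapMatrix (D.α r g) := hR
  have hext : ∀ X Y : Matrix (Fin D.d) (Fin D.d) 𝒪,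
      (∀ r : ℕ, (Ideal.Quotient.mk (maximalIdeal 𝒪 ^ r)).mapMatrix X
        = (Ideal.Quotient.mk (maximalIdeal 𝒪 ^ r)).mapMatrix Y) → X = Y :=
    fun X Y h => eq_of_forall_map_mk (maximalIdeal 𝒪) X Y h
  refine ⟨R, ?_, ?_, ?_, ?_⟩
  · intro g t
    refine hext _ _ fun r => ?_
    rw [map_mul, map_mul, hR', mapMatrix_toO _ p hp, ← map_mul, ← map_mul, D.comm]
  · intro n
    obtain ⟨L, hL, h⟩ := D.smooth n
    refine ⟨L, hL, fun σ hσ i j => ?_⟩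
    have h1 := hR' n σ
    rw [h σ hσ, map_one, ← map_one (Ideal.Quotient.mk (maximalIdeal 𝒪 ^ n)).mapMatrix] at h1
    have h2 := congrFun (congrFun h1 i) j
    rw [RingHom.mapMatrix_apply, RingHom.mapMatrix_apply, Matrix.map_apply, Matrix.map_apply,
      Ideal.Quotient.eq] at h2
    exact h2
  · intro ℓ hℓ hℓN hℓS hℓp A hA σ hσ
    refine hext _ _ fun r => ?_
    have h := congrArg (zq (maximalIdeal 𝒪) p hp r).mapMatrix (D.es r ℓ hℓ hℓN hℓS hℓp A hA σ hσ)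
    rw [map_add, map_sub, map_mul, map_mul, map_natCast, map_zero] at h
    rw [map_add, map_sub, map_mul, map_mul, hR', mapMatrix_toO _ p hp, map_natCast, map_zero]
    exact h
  · intro q hq hqN hqp A hA σ hσ
    refine hext _ _ fun r => ?_
    rw [hR', D.inert r q hq hqN hqp A hA σ hσ, map_one, map_one]

end Fermat.Agent.S30
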